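import Fermat.Agent.S36.Val.Inst.Setup
import Fermat.Agent.S36.Val.Disc
import Fermat.Agent.S36.Val.DiscTw
import Fermat.Agent.S36.Norm.KForm.Ident

/-!
# S36 / Val / Inst / XD : `Setup.XData` for the modular instance

Input: `t0 ∈ F_K(N)` with integral expansion `X ∈ A0((q))` whose reduction has order prime to `l`.
-/

set_option autoImplicit false
set_option linter.unusedSectionVars false

open ModularCurve Polynomial

namespace Fermat.Agent.S36.Val.Inst

open Fermat.Agent.ES Fermat.Agent.SS Fermat.Agent.S24 Fermat.Agent.Crux.GT.PF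
open Fermat.Agent.S36.Norm Fermat.Agent.S36.Norm.KForm Fermat.Agent.S36.Mod
open Fermat.Agent.Crux.G.QLink

noncomputable section

namespace IData

variable {N l : ℕ} [NeZero N] [NeZero l] {A0 K k : Type} [CommRing A0] [IsDomain A0]
    [IsDiscreteValuationRing A0] [Field K] [Algebra A0 K] [IsFractionRing A0 K] [Algebra K Kb]
    [Field k] (D : IData N l A0 K k)

theorem fin_a0 : FinHom (a0 (K := K) (N := N) (l := l)) := finHom_dgK K N (N * l) 1 (dvd1 N l)
theorem fin_al : FinHom (al (K := K) (N := N) (l := l)) :=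
  finHom_dgK K (N * l) (N * l * l) 1 (dvd1 (N * l) l)
theorem fin_be : FinHom (be (K := K) (N := N) (l := l)) :=
  finHom_dgK K (N * l) (N * l * l) l (dvdl (N * l) l)

include D in
theorem deg_a0 : degHom (a0 (K := K) (N := N) (l := l)) = l + 1 :=
  degHom_dgK_0 K D.hl D.hN 1 (dvd1 N l)
include D in
theorem deg_al : degHom (al (K := K) (N := N) (l := l)) = l := degHom_dgK_A K D.hl _
include D in
theorem deg_be : degHom (be (K := K) (N := N) (l := l)) = l := degHom_dgK_B K D.hl _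

theorem tw_sub (X : LaurentSeries A0) (hX0 : D.red X ≠ 0)
    (hXo : (((D.red X).order : ℤ) : k) ≠ 0) (ζ ζ' : Mu l) (h : ζ ≠ ζ') :
    IsOrd D.inc1 D.red1 D.lam 1
      (twist (ζ : Qbˣ) (inc (A0 := A0) (K := K) X) - twist (ζ' : Qbˣ) (inc (A0 := A0) (K := K) X)) := by
  have := D.dvr
  have hb := placeHom_base (φ0 A0 K) D.r D.ψ D.B.subtype D.r1 D.hψ D.hr1ψ
  have e1 : inc (A0 := A0) (K := K) X = coeffMap D.B.subtype (D.baseO X) := hb.comm_inc X
  have e2 : coeffMap D.r1 (D.baseO X) = D.red X := hb.comm_red X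
  have hz : IsPrimitiveRoot (D.zz : D.B) l :=
    IsPrimitiveRoot.of_map_of_injective (f := D.B.subtype) D.hzz Subtype.val_injective
  have hpow : ∀ ξ : Mu l, ((D.lift ξ : D.Bˣ) : D.B) ^ l = 1 := by
    intro ξ
    apply Subtype.val_injective
    have h1 : (((ξ : Qbˣ) : Qb)) ^ l = 1 := by
      have h2 := congrArg Units.val ((mem_rootsOfUnity _ _).1 ξ.2)
      rwa [Units.val_pow_eq_pow_val, Units.val_one] at h2
    show (((D.lift ξ : D.Bˣ) : D.B) ^ l : D.B).1 = 1
    rw [SubmonoidClass.coe_pow, D.coe_lift, h1]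
  have hne : ((D.lift ζ : D.Bˣ) : D.B) ≠ ((D.lift ζ' : D.Bˣ) : D.B) := by
    intro h0
    apply h
    apply Subtype.ext
    apply Units.ext
    rw [← D.coe_lift, ← D.coe_lift, h0]
  have := isOrd_twist_sub D.B.subtype D.r1 Subtype.val_injective D.hr1 D.hlam (D.lift ζ) (D.lift ζ')
    (D.r1_lift ζ) (D.r1_lift ζ') (associated_sub_of_primitiveRoot D.hl hz (hpow ζ) (hpow ζ') hne)
    (D.baseO X) (theta_ne_zero_of_order D.r1 _ (by rw [e2]; exact hX0) (by rw [e2]; exact hXo))
  rw [D.map_lift, D.map_lift, ← e1] at this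
  exact this

/-- **`XData`.** -/
def xdata (t0 : FK K N) (X : LaurentSeries A0) (hX : Φ' t0 = inc (A0 := A0) (K := K) X)
    (hX0 : D.red X ≠ 0) (hXo : (((D.red X).order : ℤ) : k) ≠ 0) : D.setup.XData where
  x1 := b0 t0
  X := X
  Ψinf_x1 := by
    show Ψinf (b0 t0) = inc (A0 := A0) (K := K) (qExpand A0 l X)
    rw [Ψinf_b0, hX]
    exact (placeHom_V (φ0 A0 K) D.r l).comm_inc X
  Ψ0_x1 := by
    show D.Ψ0 (b0 t0) = inc (A0 := A0) (K := K) X
    rw [D.Ψ0_b0, hX]
  tw_V := fun ζ a => by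
    show twist (ζ : Qbˣ) (qExpand Qb l a) = qExpand Qb l a
    exact twist_V l _ ((mem_rootsOfUnity _ _).1 ζ.2) a
  ζ_inj := Subtype.val_injective
  tw_sub := fun ζ ζ' h => D.tw_sub X hX0 hXo ζ ζ' h
  VV_ne := by
    show qExpand k l (qExpand k l (D.red X)) ≠ D.red X
    refine VV_ne_of_order l D.hl.two_le _ ?_
    intro h0
    rw [h0] at hXo
    simp at hXo
  fin0 := fin_a0
  deg0 := D.deg_a0
  finA := fin_al
  degA := D.deg_al

end IData

end

end Fermat.Agent.S36.Val.Inst
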