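import Fermat.Agent.S36.Val.Inst.Final
import Fermat.Agent.S36.Val.Inst.XD
import Fermat.Agent.S36.Mod.Disc.Glue

/-!
# S36 / Val / Inst / Final2 : `Extra`, `TowerF`, `IsDedekindDomain` of a chart of the modular instance

Inputs for a chart `t`: `QData`, the integral expansion `X` of `t` (order of the reduction prime to `l`), `unr1`, `unr2`.
-/

set_option autoImplicit false
set_option linter.unusedSectionVars false

open ModularCurve Polynomial AlgebraicCurve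

namespace Fermat.Agent.S36.Val.Inst

open Fermat.Agent.ES Fermat.Agent.SS Fermat.Agent.S24 Fermat.Agent.Crux.GT.PF
open Fermat.Agent.S36.Norm Fermat.Agent.S36.Norm.KForm Fermat.Agent.S36.Mod
open Fermat.Agent.Crux.G Fermat.Agent.Crux.G.QLink Fermat.Agent.S36.R Fermat.Agent.S36.Top

noncomputable section

namespace IData

variable {N l : ℕ} [NeZero N] [NeZero l] {A0 K k : Type} [CommRing A0] [IsDomain A0]
    [IsDiscreteValuationRing A0] [Field K] [Algebra A0 K] [IsFractionRing A0 K] [Algebra K Kb]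
    [Field k] (D : IData N l A0 K k)

variable {E : Type} [Field E] [CharZero E] [Algebra A0 E]
    [Algebra E (FK K N)] [Algebra E (FK K (N * l))] [Algebra E (FK K (N * l * l))]
    [Algebra A0 (FK K N)] [Algebra A0 (FK K (N * l))] [Algebra A0 (FK K (N * l * l))]
    [IsScalarTower A0 E (FK K N)] [IsScalarTower A0 E (FK K (N * l))]
    [IsScalarTower A0 E (FK K (N * l * l))]
    [FiniteDimensional E (FK K N)] [FiniteDimensional E (FK K (N * l))]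
    [FiniteDimensional E (FK K (N * l * l))]

theorem res_A (hAK : ∀ a : A0, algebraMap K (FK K N) (algebraMap A0 K a) = algebraMap A0 (FK K N) a)
    (a : A0) : D.setup.R.Res (algebraMap A0 (FK K N) a) (algebraMap k (LaurentSeries k) (D.r a)) := by
  show IsRes (inc (A0 := A0) (K := K)) D.red (Φ' (algebraMap A0 (FK K N) a)) _
  have h1 : Φ' (algebraMap A0 (FK K N) a) = inc (A0 := A0) (K := K) (HahnSeries.C a) := by
    rw [← hAK]
    show Φ' (N := N) (cst (algebraMap A0 K a)) = _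
    rw [Φ'_cst, inc, coeffMap_C']
    rfl
  have h2 : algebraMap k (LaurentSeries k) (D.r a) = D.red (HahnSeries.C a) := by
    rw [red, coeffMap_C', algebraMap_laurentSeries_eq_single, HahnSeries.C_apply]
  rw [h1, h2]
  exact isRes_inc _

variable {i₀ : Io l} {t : E} (Dt : QData D.setup i₀ b0 D.w1K D.w2K (l : A0) t)

theorem extra [IsAlgClosed k]
    (hAK : ∀ a : A0, algebraMap K (FK K N) (algebraMap A0 K a) = algebraMap A0 (FK K N) a)
    (unr1 : ∀ z : Ideal (Mx A0 (FK K (N * l)) t).toSubring, z.IsMaximal →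
      (Dt.chart.m1 D.hl.two_le).Thru z 0 → (Dt.chart.m1 D.hl.two_le).Thru z 1 →
      ∀ 𝔮 : Ideal (Mx A0 (FK K N) t).toSubring, 𝔮.IsPrime → 𝔮 ≤ z.comap Dt.chart.α →
        Dt.chart.pi ∉ 𝔮 → ∀ y : (Mx A0 (FK K (N * l)) t).toSubring, y ^ 2 ∈ 𝔮.map Dt.chart.α →
          ∃ s, s ∉ 𝔮 ∧ Dt.chart.α s * y ∈ 𝔮.map Dt.chart.α)
    (unr2 : ∀ z : Ideal (Mx A0 (FK K (N * l)) t).toSubring, z.IsMaximal →
      (Dt.chart.m1 D.hl.two_le).Thru z 0 → ¬ (Dt.chart.m1 D.hl.two_le).Thru z 1 →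
      ∀ 𝔮 : Ideal (Mx A0 (FK K (N * l)) t).toSubring, 𝔮.IsPrime → 𝔮 ≤ z →
        Dt.chart.α Dt.chart.pi ∉ 𝔮 →
        ∀ y : (Mx A0 (FK K (N * l * l)) t).toSubring, y ^ 2 ∈ 𝔮.map Dt.chart.p1 →
          ∃ s, s ∉ 𝔮 ∧ Dt.chart.p1 s * y ∈ 𝔮.map Dt.chart.p1) :
    Dt.chart.Extra D.hl.two_le where
  notField := Dt.notField D.r D.hr D.r_l (D.res_A hAK)
  algClosed := fun 𝔫 _ => Dt.algClosed D.r D.hr D.r_l (D.res_A hAK) 𝔫
  α_fin := Dt.α_fin
  β_fin := Dt.β_fin D.w1K_a0 D.w1K_w1K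
  p1_fin := Dt.p1_fin
  p2_fin := Dt.p2_fin D.w1K_w1K D.w2K_al D.w2K_w2K
  unr1 := unr1
  unr2 := unr2

theorem isDedekind [IsAlgClosed k]
    (hAK : ∀ a : A0, algebraMap K (FK K N) (algebraMap A0 K a) = algebraMap A0 (FK K N) a) :
    IsDedekindDomain Dt.chart.Rr :=
  Dt.isDedekindDomain D.r D.hr D.r_l (D.res_A hAK)

set_option maxHeartbeats 4000000 in
theorem towerF [CharZero K] (X0 : Dt.chart.Extra D.hl.two_le) (X : LaurentSeries A0)
    (hX : Φ' (algebraMap E (FK K N) t) = inc (A0 := A0) (K := K) X)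
    (hX0 : D.red X ≠ 0) (hXo : (((D.red X).order : ℤ) : k) ≠ 0) :
    TowerF l (Dt.chart.tower D.hl.two_le X0) D.setup.a0 D.setup.al D.setup.be := by
  have hl2 := D.hl.two_le
  have i0 : IsIntegrallyClosed (Mx A0 (FK K N) t).toSubring := Mx_isIntegrallyClosed Dt.ht Dt.hgen
  have i1 : IsIntegrallyClosed (Mx A0 (FK K (N * l)) t).toSubring :=
    Mx_isIntegrallyClosed Dt.ht Dt.hgen
  have f0 : IsFractionRing (Mx A0 (FK K N) t).toSubring (FK K N) := Mx_isFractionRing Dt.ht Dt.hgen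
  have f1 : IsFractionRing (Mx A0 (FK K (N * l)) t).toSubring (FK K (N * l)) :=
    Mx_isFractionRing Dt.ht Dt.hgen
  have c0 : CharZero (FK K N) := charZero_of_injective_algebraMap (algebraMap K (FK K N)).injective
  have c1 : CharZero (FK K (N * l)) :=
    charZero_of_injective_algebraMap (algebraMap K (FK K (N * l))).injective
  have hx1 : (D.xdata _ X hX hX0 hXo).x1 ∈ (Mx A0 (FK K (N * l)) t).toSubring := Dt.int_b0t
  refine Dt.chart.towerF hl2 X0 D.deg_a0 D.deg_al D.deg_be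
    (Dt.chart.db1_of_xdata hl2 (D.xdata _ X hX hX0 hXo) hx1 ?_ ?_)
    (Dt.chart.db2_of_xdata hl2 (D.xdata _ X hX hX0 hXo) hx1 ?_ ?_)
    (Dt.chart.nm1 hl2 fin_al X0.p1_fin) (Dt.chart.nm2 hl2 fin_be X0.p2_fin)
  · intro f hf
    obtain ⟨y, hy⟩ := IsIntegrallyClosed.isIntegral_iff.mp
      (show IsIntegral (Mx A0 (FK K N) t).toSubring f from hf)
    rw [← hy]
    exact y.2
  · exact Chart.Lift_isIntegralElem D.setup.a0 _ _ Dt.chart.α (fun _ => rfl) X0.α_fin ⟨_, hx1⟩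
  · intro f hf
    obtain ⟨y, hy⟩ := IsIntegrallyClosed.isIntegral_iff.mp
      (show IsIntegral (Mx A0 (FK K (N * l)) t).toSubring f from hf)
    rw [← hy]
    exact y.2
  · exact Chart.Lift_isIntegralElem D.setup.al _ _ Dt.chart.p1 (fun _ => rfl) X0.p1_fin
      ⟨_, Dt.chart.be_mem _ hx1⟩

/-- the statement `unr1` of a chart. -/
def Unr1 : Prop :=
  ∀ z : Ideal (Mx A0 (FK K (N * l)) t).toSubring, z.IsMaximal →
      (Dt.chart.m1 D.hl.two_le).Thru z 0 → (Dt.chart.m1 D.hl.two_le).Thru z 1 →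
      ∀ 𝔮 : Ideal (Mx A0 (FK K N) t).toSubring, 𝔮.IsPrime → 𝔮 ≤ z.comap Dt.chart.α →
        Dt.chart.pi ∉ 𝔮 → ∀ y : (Mx A0 (FK K (N * l)) t).toSubring, y ^ 2 ∈ 𝔮.map Dt.chart.α →
          ∃ s, s ∉ 𝔮 ∧ Dt.chart.α s * y ∈ 𝔮.map Dt.chart.α

/-- the statement `unr2` of a chart. -/
def Unr2 : Prop :=
  ∀ z : Ideal (Mx A0 (FK K (N * l)) t).toSubring, z.IsMaximal →
      (Dt.chart.m1 D.hl.two_le).Thru z 0 → ¬ (Dt.chart.m1 D.hl.two_le).Thru z 1 →
      ∀ 𝔮 : Ideal (Mx A0 (FK K (N * l)) t).toSubring, 𝔮.IsPrime → 𝔮 ≤ z →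
        Dt.chart.α Dt.chart.pi ∉ 𝔮 →
        ∀ y : (Mx A0 (FK K (N * l * l)) t).toSubring, y ^ 2 ∈ 𝔮.map Dt.chart.p1 →
          ∃ s, s ∉ 𝔮 ∧ Dt.chart.p1 s * y ∈ 𝔮.map Dt.chart.p1

set_option maxHeartbeats 4000000 in
/-- **(F1')**: `NoInvK` from the two `QData`, the integral expansions of `x`, `x⁻¹`, and `unr1`, `unr2` in both charts. -/
theorem noInvK_of_qdata [IsAlgClosed k] [CharZero K] (i₀ : Io l) {x : E}
    (D0 : QData D.setup i₀ b0 D.w1K D.w2K (l : A0) x)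
    (Dinf : QData D.setup i₀ b0 D.w1K D.w2K (l : A0) x⁻¹)
    (hAK : ∀ a : A0, algebraMap K (FK K N) (algebraMap A0 K a) = algebraMap A0 (FK K N) a)
    (u10 : D.Unr1 D0) (u20 : D.Unr2 D0) (u1i : D.Unr1 Dinf) (u2i : D.Unr2 Dinf)
    (X Xi : LaurentSeries A0)
    (hX : Φ' (algebraMap E (FK K N) x) = inc (A0 := A0) (K := K) X)
    (hX0 : D.red X ≠ 0) (hXo : (((D.red X).order : ℤ) : k) ≠ 0)
    (hXi : Φ' (algebraMap E (FK K N) x⁻¹) = inc (A0 := A0) (K := K) Xi)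
    (hXi0 : D.red Xi ≠ 0) (hXio : (((D.red Xi).order : ℤ) : k) ≠ 0)
    (hx : ((algebraMap E (FK K (N * l * l)) x : FK K (N * l * l)) : LaurentSeries K).order < 0)
    (m : ℕ) (hm0 : 0 < m) (hlm : l.Coprime m) (hmπ : ¬ (l : A0) ∣ (m : A0)) (ζ : A0)
    (hζ : IsPrimitiveRoot ζ m) (htame : ∀ u : A0, (l : A0) ∣ u - 1 → ∃ c : A0, c ^ m = u) :
    NoInvK K (N * l) (N * l * l) l (dvdA N l) (dvdB N l) m
      ((l + 1) * (l - 1) * l * (l ^ 2 - 1)) :=
  D.noInvK_of_charts i₀ D0 Dinf (D.extra D0 hAK u10 u20) (D.extra Dinf hAK u1i u2i)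
    (D.towerF D0 _ X hX hX0 hXo) (D.towerF Dinf _ Xi hXi hXi0 hXio)
    (D.isDedekind D0 hAK) (D.isDedekind Dinf hAK) hAK hx m hm0 hlm hmπ ζ hζ htame

end IData

end

end Fermat.Agent.S36.Val.Inst
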