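import Fermat.Agent.S36.Val.Inst.Defs

/-!
# S36 / Val / Inst / Compat : compatibilities of the embeddings with the degeneracy maps  (task `S36/VI-Compat`)

Everything by `beta_dgK` (`β ∘ dgK = dg ∘ β`), `dg_eq_alpha`, `dg_eq_beta` (`Norm/Levels.lean`), `coe_dg`, `coe_dg_one`,
`IsAL.alpha/beta` (`D.hw1`), `IsAL2.alpha/beta` (`D.hw2.alpha D.hw1 D.hl`: `w2 ∘ α' = β' ∘ w1`, `w2 ∘ β' = α' ∘ w1`),
`IsMid.alpha` (`D.hτ i`), `IsMid.comp_w2` + `IsAL2.invol`:
`τ_z (β' g) = τ_z (w2 (α' (w1 g))) = twist z (τ_{z⁻¹} (α' (w1 g))) = twist z (coe (w1 g))`.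
-/

set_option autoImplicit false
set_option linter.unusedSectionVars false

open ModularCurve Polynomial

namespace Fermat.Agent.S36.Val.Inst

open Fermat.Agent.ES Fermat.Agent.SS Fermat.Agent.S24 Fermat.Agent.Crux.GT.PF
open Fermat.Agent.S36.Norm Fermat.Agent.S36.Norm.KForm Fermat.Agent.S36.Mod
open Fermat.Agent.Crux.G.QLink

noncomputable section

namespace IData

variable {N l : ℕ} [NeZero N] [NeZero l] {A0 K k : Type} [CommRing A0] [IsDomain A0]
    [IsDiscreteValuationRing A0] [Field K] [Algebra A0 K] [IsFractionRing A0 K] [Algebra K Kb]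
    [Field k] (D : IData N l A0 K k)

theorem Ψinf_a0 (c : FK K N) : Ψinf (N := N) (l := l) (a0 c) = Φ' c := by
  change ((beta K (N * l) (dgK K N (N * l) 1 (dvd1 N l) c) : FF (N * l)) : LaurentSeries Qb)
    = ((beta K N c : FF N) : LaurentSeries Qb)
  rw [beta_dgK, coe_dg_one]

theorem Ψ0_a0 (c : FK K N) : D.Ψ0 (a0 c) = qExpand Qb l (Φ' c) := by
  change ((D.w1 (beta K (N * l) (dgK K N (N * l) 1 (dvd1 N l) c)) : FF (N * l)) : LaurentSeries Qb)
    = qExpand Qb l ((beta K N c : FF N) : LaurentSeries Qb)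
  rw [beta_dgK, dg_eq_alpha, D.hw1.alpha, ← dg_eq_beta N l (dvdl N l), coe_dg]

theorem Ψinf_b0 (c : FK K N) : Ψinf (N := N) (l := l) (b0 c) = qExpand Qb l (Φ' c) := by
  change ((beta K (N * l) (dgK K N (N * l) l (dvdl N l) c) : FF (N * l)) : LaurentSeries Qb)
    = qExpand Qb l ((beta K N c : FF N) : LaurentSeries Qb)
  rw [beta_dgK, coe_dg]

theorem Ψ0_b0 (c : FK K N) : D.Ψ0 (b0 c) = Φ' c := by
  change ((D.w1 (beta K (N * l) (dgK K N (N * l) l (dvdl N l) c)) : FF (N * l)) : LaurentSeries Qb)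
    = ((beta K N c : FF N) : LaurentSeries Qb)
  rw [beta_dgK, dg_eq_beta, D.hw1.beta, ← dg_eq_alpha N l (dvd1 N l), coe_dg_one]

theorem Φinf_al (h : FK K (N * l)) : Φinf (N := N) (l := l) (al h) = Ψinf h := by
  change ((beta K (N * l * l) (dgK K (N * l) (N * l * l) 1 (dvd1 (N * l) l) h) : FF (N * l * l)) :
    LaurentSeries Qb) = ((beta K (N * l) h : FF (N * l)) : LaurentSeries Qb)
  rw [beta_dgK, coe_dg_one]

theorem Φinf_be (h : FK K (N * l)) : Φinf (N := N) (l := l) (be h) = qExpand Qb l (Ψinf h) := by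
  change ((beta K (N * l * l) (dgK K (N * l) (N * l * l) l (dvdl (N * l) l) h) : FF (N * l * l)) :
    LaurentSeries Qb) = qExpand Qb l ((beta K (N * l) h : FF (N * l)) : LaurentSeries Qb)
  rw [beta_dgK, coe_dg]

theorem Φ0_al (h : FK K (N * l)) : D.Φ0 (al h) = qExpand Qb l (D.Ψ0 h) := by
  change ((D.w2 (beta K (N * l * l) (dgK K (N * l) (N * l * l) 1 (dvd1 (N * l) l) h)) :
    FF (N * l * l)) : LaurentSeries Qb)
    = qExpand Qb l ((D.w1 (beta K (N * l) h) : FF (N * l)) : LaurentSeries Qb)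
  rw [beta_dgK, dg_eq_alpha, D.hw2.alpha D.hw1 D.hl, ← dg_eq_beta (N * l) l (dvdl (N * l) l),
    coe_dg]

theorem Φ0_be (h : FK K (N * l)) : D.Φ0 (be h) = D.Ψ0 h := by
  change ((D.w2 (beta K (N * l * l) (dgK K (N * l) (N * l * l) l (dvdl (N * l) l) h)) :
    FF (N * l * l)) : LaurentSeries Qb)
    = ((D.w1 (beta K (N * l) h) : FF (N * l)) : LaurentSeries Qb)
  rw [beta_dgK, dg_eq_beta, D.hw2.beta D.hw1 D.hl, ← dg_eq_alpha (N * l) l (dvd1 (N * l) l),
    coe_dg_one]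

theorem τ_al (i : Io l) (h : FK K (N * l)) : D.τK i (al h) = Ψinf h := by
  change D.τ i (beta K (N * l * l) (dgK K (N * l) (N * l * l) 1 (dvd1 (N * l) l) h))
    = ((beta K (N * l) h : FF (N * l)) : LaurentSeries Qb)
  rw [beta_dgK, dg_eq_alpha, (D.hτ i).alpha]

theorem τ_be (i : Io l) (h : FK K (N * l)) :
    D.τK i (be h) = twist ((i : Mu l) : Qbˣ) (D.Ψ0 h) := by
  change D.τ i (beta K (N * l * l) (dgK K (N * l) (N * l * l) l (dvdl (N * l) l) h))
    = twist ((i : Mu l) : Qbˣ) ((D.w1 (beta K (N * l) h) : FF (N * l)) : LaurentSeries Qb)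
  have hz : (((i : Mu l) : Qbˣ)) ^ l = 1 := (mem_rootsOfUnity _ _).1 (i : Mu l).2
  have hν : IsMid N l (((i : Mu l) : Qbˣ))⁻¹ (D.τ (ν i)) := D.hτ (ν i)
  rw [beta_dgK, dg_eq_beta, ← D.hw2.invol D.hl D.hN (heckeBetaBar Qb (N * l) l _),
    D.hw2.beta D.hw1 D.hl, (D.hτ i).comp_w2 hν D.hw2 D.hl hz, hν.alpha]

theorem be_cst (c : K) : be (N := N) (l := l) (a0 (cst c)) = al (a0 (cst c)) := by
  change dgK K (N * l) (N * l * l) l (dvdl (N * l) l)
      (dgK K N (N * l) 1 (dvd1 N l) (algebraMap K (FK K N) c))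
    = dgK K (N * l) (N * l * l) 1 (dvd1 (N * l) l)
      (dgK K N (N * l) 1 (dvd1 N l) (algebraMap K (FK K N) c))
  rw [AlgHom.commutes, AlgHom.commutes, AlgHom.commutes]

theorem b0_cst (c : K) : b0 (N := N) (l := l) (cst c) = a0 (cst c) := by
  change dgK K N (N * l) l (dvdl N l) (algebraMap K (FK K N) c)
    = dgK K N (N * l) 1 (dvd1 N l) (algebraMap K (FK K N) c)
  rw [AlgHom.commutes, AlgHom.commutes]

theorem al_b0 (c : FK K N) : al (N := N) (l := l) (b0 c) = be (a0 c) := by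
  apply Subtype.ext
  change qExpand K 1 (qExpand K l (c : LaurentSeries K))
    = qExpand K l (qExpand K 1 (c : LaurentSeries K))
  rw [qExpand_one_apply, qExpand_one_apply]

end IData

end

end Fermat.Agent.S36.Val.Inst

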