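import Fermat.Agent.S36.Val.Inst.Defs

/-!
# S36 / Val / Inst / Const : constants   (task `S36/VI-Const`)

`Φ' (cst c) = C (algebraMap K Kb c)` (`beta_coe`, `coeffMap` of a constant series: `algebraMap_laurentSeries_eq_single`).
* `hK`: `c = l^n * a`, `a ∈ A0ˣ` (`IsDiscreteValuationRing`: every nonzero element of `K = Frac A0` is `unit * π^n`:
  `IsDiscreteValuationRing.eq_unit_mul_pow_irreducible` for numerator and denominator); `r a = b^m` (`D.roots`), `b = r e`, `e` a unit;
  `u = a / e^m` has residue `1`.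
* `hμ`: `γ ∈ k((q))`, `γ^m = 1`, `l ∤ m` ⟹ `γ = C c`: `γ` has order `0`; if `γ ≠ C (γ.coeff 0)` let `n > 0` be the order of
  `γ - C c`, coefficient `a ≠ 0`; the coefficient of `q^n` in `γ^m` is `m c^(m-1) a ≠ 0` (`(m : k) ≠ 0` by `charP_k`).
  [alternative: `X^m - 1` is separable and splits in `k` (D.roots..): `γ` is a root of `∏ (X - C ζ)`.]  Then `D.tame2`.
-/

set_option autoImplicit false
set_option linter.unusedSectionVars false

open ModularCurve Polynomial

namespace Fermat.Agent.S36.Val.Inst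

open Fermat.Agent.ES Fermat.Agent.SS Fermat.Agent.S24 Fermat.Agent.Crux.GT.PF
open Fermat.Agent.S36.Norm Fermat.Agent.S36.Norm.KForm Fermat.Agent.S36.Mod
open Fermat.Agent.Crux.G.QLink

noncomputable section

namespace IData

variable {N l : ℕ} [NeZero N] [NeZero l] {A0 K k : Type} [CommRing A0] [IsDomain A0]
    [IsDiscreteValuationRing A0] [Field K] [Algebra A0 K] [IsFractionRing A0 K] [Algebra K Kb]
    [Field k] (D : IData N l A0 K k)

/-- (task VI-Const) non units of `A0` die in `k`. -/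
private theorem Const_r_eq_zero {a : A0} (ha : ¬ IsUnit a) : D.r a = 0 := by
  have h1 : (RingHom.ker D.r).IsMaximal := RingHom.ker_isMaximal_of_surjective D.r D.hr
  have h2 : RingHom.ker D.r = IsLocalRing.maximalIdeal A0 := IsLocalRing.eq_maximalIdeal h1
  have h3 : a ∈ IsLocalRing.maximalIdeal A0 := (IsLocalRing.mem_maximalIdeal a).2 ha
  rw [← h2] at h3
  exact h3

private theorem Const_coeffMap_C {R S : Type*} [CommRing R] [CommRing S] (f : R →+* S) (a : R) :
    coeffMap f (HahnSeries.C a) = HahnSeries.C (f a) := by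
  rw [HahnSeries.C_apply, coeffMap_single, HahnSeries.C_apply]

theorem r_l : D.r (l : A0) = 0 := by
  exact Const_r_eq_zero D D.hπ.not_isUnit

include D in
theorem charP_k : CharP k l := by
  rw [CharP.charP_iff_prime_eq_zero D.hl, ← map_natCast D.r, D.r_l]

theorem Φ'_cst (c : K) : Φ' (N := N) (cst c) = HahnSeries.C (algebraMap K Kb c) := by
  show ((beta K N (algebraMap K (FK K N) c) : FF N) : LaurentSeries Qb) = _
  rw [beta_algebraMap]
  show algebraMap Kb (LaurentSeries Kb) (algebraMap K Kb c) = _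
  rw [algebraMap_laurentSeries_eq_single, HahnSeries.C_apply]

theorem Φ'_π : Φ' (N := N) (cst (l : K)) = inc (A0 := A0) (K := K) (HahnSeries.C (l : A0)) := by
  rw [Φ'_cst, inc, Const_coeffMap_C, map_natCast (algebraMap K Kb), map_natCast (φ0 A0 K)]

theorem V_cst (c : K) : qExpand Qb l (Φ' (N := N) (cst c)) = Φ' (N := N) (cst c) := by
  rw [Φ'_cst, ModularCurve.qExpand_C]

include D in
/-- (task VI-Const) every nonzero element of `K` is `l ^ n * unit`. -/
private theorem Const_exists_unit (c : K) (hc : c ≠ 0) :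
    ∃ (n : ℤ) (a : A0ˣ), c = (l : K) ^ n * algebraMap A0 K a := by
  obtain ⟨x, y, hy, rfl⟩ := IsFractionRing.div_surjective (A := A0) c
  have hy0 : y ≠ 0 := nonZeroDivisors.ne_zero hy
  have hx0 : x ≠ 0 := by
    rintro rfl
    rw [map_zero, zero_div] at hc
    exact hc rfl
  obtain ⟨n1, u1, rfl⟩ := IsDiscreteValuationRing.eq_unit_mul_pow_irreducible hx0 D.hπ
  obtain ⟨n2, u2, rfl⟩ := IsDiscreteValuationRing.eq_unit_mul_pow_irreducible hy0 D.hπ
  have hl0 : (l : K) ≠ 0 := by
    have h1 : algebraMap A0 K (l : A0) ≠ 0 := by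
      rw [Ne, map_eq_zero_iff _ (IsFractionRing.injective A0 K)]
      exact D.hπ.ne_zero
    rwa [map_natCast] at h1
  have hu2 : algebraMap A0 K (u2 : A0) ≠ 0 := by
    rw [Ne, map_eq_zero_iff _ (IsFractionRing.injective A0 K)]
    exact u2.ne_zero
  have hinv : algebraMap A0 K ((u2⁻¹ : A0ˣ) : A0) = (algebraMap A0 K (u2 : A0))⁻¹ := by
    apply eq_inv_of_mul_eq_one_left
    rw [← map_mul, Units.inv_mul, map_one]
  refine ⟨(n1 : ℤ) - n2, u1 * u2⁻¹, ?_⟩
  rw [zpow_sub₀ hl0, zpow_natCast, zpow_natCast, Units.val_mul, map_mul, map_mul, map_mul, map_pow,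
    map_pow, map_natCast, hinv]
  field_simp

theorem hK (m : ℕ) (hm : 0 < m) (c : K) (hc : c ≠ 0) : ∃ (n : ℤ) (e u : K),
    c = (l : K) ^ n * e ^ m * u ∧ IsRes (inc (A0 := A0) (K := K)) D.red (Φ' (N := N) (cst u)) 1 := by
  obtain ⟨n, a, rfl⟩ := Const_exists_unit D c hc
  have hra : D.r (a : A0) ≠ 0 := (a.isUnit.map D.r).ne_zero
  obtain ⟨b, hb⟩ := D.roots m hm (D.r a)
  obtain ⟨e0, rfl⟩ := D.hr b
  have he0 : e0 ≠ 0 := by
    rintro rfl
    rw [map_zero, zero_pow hm.ne'] at hb
    exact hra hb.symm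
  have he0K : algebraMap A0 K e0 ≠ 0 := by
    rw [Ne, map_eq_zero_iff _ (IsFractionRing.injective A0 K)]
    exact he0
  refine ⟨n, algebraMap A0 K e0, algebraMap A0 K a / algebraMap A0 K e0 ^ m, ?_,
    HahnSeries.C (a : A0), HahnSeries.C (e0 ^ m), ?_, ?_, ?_⟩
  · field_simp
  · rw [red, Const_coeffMap_C, map_pow, hb]
    exact fun h => hra (HahnSeries.C_injective (by rw [h, map_zero]))
  · rw [Φ'_cst, inc, Const_coeffMap_C, Const_coeffMap_C, ← map_mul]
    congr 1
    show _ * algebraMap K Kb (algebraMap A0 K (e0 ^ m)) = algebraMap K Kb (algebraMap A0 K a)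
    rw [← map_mul, map_pow, div_mul_cancel₀ _ (pow_ne_zero m he0K)]
  · rw [one_mul, red, Const_coeffMap_C, Const_coeffMap_C, map_pow, hb]

/-- (task VI-Const) a power series over a field with `P ^ m = 1`, `m ≠ 0` in the field, is constant. -/
private theorem Const_powerSeries {k : Type*} [Field k] (m : ℕ) (hm : (m : k) ≠ 0)
    (P : PowerSeries k) (hP : P ^ m = 1) :
    P = PowerSeries.C (PowerSeries.constantCoeff P) := by
  set c : k := PowerSeries.constantCoeff P with hc
  have hcm : c ^ m = 1 := by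
    rw [hc, ← map_pow, hP, map_one]
  have hm0 : m ≠ 0 := by
    rintro rfl
    exact hm Nat.cast_zero
  have hc0 : c ≠ 0 := by
    intro h
    rw [h, zero_pow hm0] at hcm
    exact zero_ne_one hcm
  have h1 := geom_sum₂_mul P (PowerSeries.C c) m
  rw [hP, ← map_pow, hcm, map_one, sub_self] at h1
  have hS : PowerSeries.constantCoeff
      (∑ i ∈ Finset.range m, P ^ i * (PowerSeries.C c) ^ (m - 1 - i)) ≠ 0 := by
    rw [map_sum]
    have h2 : ∀ i ∈ Finset.range m,
        PowerSeries.constantCoeff (P ^ i * (PowerSeries.C c) ^ (m - 1 - i)) = c ^ (m - 1) := by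
      intro i hi
      rw [Finset.mem_range] at hi
      rw [map_mul, map_pow, map_pow, PowerSeries.constantCoeff_C, ← hc, ← pow_add]
      congr 1
      omega
    rw [Finset.sum_congr rfl h2, Finset.sum_const, Finset.card_range, nsmul_eq_mul]
    exact mul_ne_zero hm (pow_ne_zero _ hc0)
  have hS0 : (∑ i ∈ Finset.range m, P ^ i * (PowerSeries.C c) ^ (m - 1 - i)) ≠ 0 := by
    intro h
    rw [h, map_zero] at hS
    exact hS rfl
  rcases mul_eq_zero.1 h1 with h | h
  · exact absurd h hS0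
  · exact sub_eq_zero.1 h

include D in
theorem eq_C_of_pow_eq_one (m : ℕ) (hm : 0 < m) (hlm : l.Coprime m) (γ : LaurentSeries k)
    (hγ : γ ^ m = 1) : ∃ c : k, c ^ m = 1 ∧ γ = HahnSeries.C c := by
  have := D.charP_k
  have hmk : (m : k) ≠ 0 := by
    rw [Ne, CharP.cast_eq_zero_iff k l]
    intro h
    have h1 : l ∣ 1 := by
      have := Nat.dvd_gcd (dvd_refl l) h
      rwa [hlm] at this
    exact D.hl.one_lt.ne' (Nat.dvd_one.1 h1)
  have hord : γ.order = 0 := by
    have h1 := HahnSeries.order_pow γ m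
    rw [hγ, HahnSeries.order_one] at h1
    rcases smul_eq_zero.1 h1.symm with h | h
    · exact absurd h hm.ne'
    · exact h
  have hγP : HahnSeries.ofPowerSeries ℤ k (PowerSeries.mk fun n => γ.coeff n) = γ := by
    ext i
    have h := PowerSeries.coeff_coe (PowerSeries.mk fun n : ℕ => γ.coeff n) i
    rw [h]
    split_ifs with hi
    · exact (HahnSeries.coeff_eq_zero_of_lt_order (by rw [hord]; exact hi)).symm
    · rw [PowerSeries.coeff_mk, Int.natCast_natAbs, abs_of_nonneg (not_lt.1 hi)]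
  set P : PowerSeries k := PowerSeries.mk fun n => γ.coeff n with hPdef
  have hP : P ^ m = 1 := by
    apply HahnSeries.ofPowerSeries_injective (Γ := ℤ)
    rw [map_pow, hγP, hγ, map_one]
  have hPc := Const_powerSeries m hmk P hP
  refine ⟨PowerSeries.constantCoeff P, by rw [← map_pow, hP, map_one], ?_⟩
  rw [← hγP, hPc, HahnSeries.ofPowerSeries_C, PowerSeries.constantCoeff_C]

theorem hμ (m : ℕ) (hm : 0 < m) (hlm : l.Coprime m) (γ : LaurentSeries k) (hγ : γ ^ m = 1) :
    ∃ u : K, u ^ m = 1 ∧ IsRes (inc (A0 := A0) (K := K)) D.red (Φ' (N := N) (cst u)) γ := by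
  obtain ⟨c, hc, rfl⟩ := D.eq_C_of_pow_eq_one m hm hlm γ hγ
  obtain ⟨a, ha, rfl⟩ := D.tame2 m hm hlm c hc
  refine ⟨algebraMap A0 K a, by rw [← map_pow, ha, map_one], HahnSeries.C a, 1, ?_, ?_, ?_⟩
  · rw [map_one]
    exact one_ne_zero
  · rw [map_one, mul_one, Φ'_cst, inc, Const_coeffMap_C]
    rfl
  · rw [map_one, mul_one, red, Const_coeffMap_C]

end IData

end

end Fermat.Agent.S36.Val.Inst

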