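import Fermat.Agent.S36.Val.Inst.Defs

/-!
# S36 / Val / Inst / Frac : the expansions lie in `Frac A0((q))` resp. `Frac B((q))`   (task `S36/VI-Frac`)

`frac_of_gen`: `FK K M = K(j(q^d) : d ∣ M)` (unfold `modularFunctionFieldFullC`: an `IntermediateField.adjoin`; compare
`KForm.subfield_eq_top_of_beta`, `S28`-type generation lemmas); the set `{y | IsFrac incX (Φ y)}` is the comap of the subfield
`Val.fracSubfield incX hinj`; use `IntermediateField.adjoin_induction` (or `Subfield.closure`).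
Constants: `c = a / b`, `a, b ∈ A0` (`IsFractionRing.div_surjective`), `Φ (algebraMap c) = C (algebraMap K Kb c)`.
Generators: `β (jKd d) = jF M d` (`beta_jKd`); `coe (jF M d) = jSer d = qExpand Qb d (J Qb) = inc (qExpand A0 d (J A0))`
(`coeffMap_qExpand`, `coeffMap_jqModC`); `w1, w2` permute the `jF` (`IsAL`, `IsAL2` applied to `jF`, or helper3's
`Norm.AL_jF`: any two AL maps agree on generators; simplest: write `jF (N l l) d` as `α'α (jF N e)`, `α'β (jF N e)` or `β'β (jF N e)`,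
`MidEmb.Mid_dvd_cases`); `τ_z (jF d) = midSer z d` (`IsMid.aa/ab/bb`), and `twist z (inc1 g) = inc1 (twist (lift z) g)`.
-/

set_option autoImplicit false
set_option linter.unusedSectionVars false

open ModularCurve Polynomial

namespace Fermat.Agent.S36.Val.Inst

open Fermat.Agent.ES Fermat.Agent.SS Fermat.Agent.S24 Fermat.Agent.Crux.GT.PF
open Fermat.Agent.S36.Norm Fermat.Agent.S36.Norm.KForm Fermat.Agent.S36.Mod
open Fermat.Agent.Crux.G.QLink

noncomputable section

namespace IData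

variable {N l : ℕ} [NeZero N] [NeZero l] {A0 K k : Type} [CommRing A0] [IsDomain A0]
    [IsDiscreteValuationRing A0] [Field K] [Algebra A0 K] [IsFractionRing A0 K] [Algebra K Kb]
    [Field k] (D : IData N l A0 K k)

theorem Frac_coeffMap_injective {R S : Type*} [CommRing R] [CommRing S] (f : R →+* S)
    (hf : Function.Injective f) : Function.Injective (coeffMap f) := by
  intro x y hxy
  ext n
  apply hf
  have := congrArg (fun z => HahnSeries.coeff z n) hxy
  simpa using this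

theorem Frac_φ0_injective : Function.Injective (φ0 A0 K) := by
  show Function.Injective ⇑((algebraMap K Kb).comp (algebraMap A0 K))
  rw [RingHom.coe_comp]
  exact (algebraMap K Kb).injective.comp (IsFractionRing.injective A0 K)

theorem inc_injective : Function.Injective (inc (A0 := A0) (K := K)) :=
  Frac_coeffMap_injective _ Frac_φ0_injective

theorem inc1_injective : Function.Injective D.inc1 :=
  Frac_coeffMap_injective _ Subtype.val_injective

/-- a ring hom on `FK K M` has values in a subfield as soon as the constants and the generators do. -/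
theorem mem_of_gen (M : ℕ) [NeZero M] (Φ : FK K M →+* LaurentSeries Qb) (C : Subfield (LaurentSeries Qb))
    (hc : ∀ c : K, Φ (algebraMap K (FK K M) c) ∈ C)
    (hj : ∀ (d : ℕ) [NeZero d] (hd : d ∣ M), Φ (jKd K M d hd) ∈ C) (y : FK K M) : Φ y ∈ C := by
  obtain ⟨y, hy⟩ := y
  refine IntermediateField.adjoin_induction (F := K) (s := divisorExpansionsC K M)
    (p := fun x hx => Φ ⟨x, hx⟩ ∈ C) ?_ ?_ ?_ ?_ ?_ hy
  · rintro x ⟨d, hd0, hd, rfl⟩
    exact hj d hd
  · intro c
    exact hc c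
  · intro x y hx hy ihx ihy
    have e : (⟨x + y, add_mem hx hy⟩ : FK K M) = ⟨x, hx⟩ + ⟨y, hy⟩ := rfl
    rw [e, map_add]
    exact add_mem ihx ihy
  · intro x hx ihx
    have e : (⟨x⁻¹, inv_mem hx⟩ : FK K M) = (⟨x, hx⟩ : FK K M)⁻¹ := rfl
    rw [e, map_inv₀]
    exact inv_mem ihx
  · intro x y hx hy ihx ihy
    have e : (⟨x * y, mul_mem hx hy⟩ : FK K M) = ⟨x, hx⟩ * ⟨y, hy⟩ := rfl
    rw [e, map_mul]
    exact mul_mem ihx ihy

/-! ### constants and generators -/

theorem Frac_inc_C (a : A0) : inc (A0 := A0) (K := K) (HahnSeries.C a)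
    = algebraMap Qb (LaurentSeries Qb) (algebraMap K Kb (algebraMap A0 K a)) := by
  show coeffMap (φ0 A0 K) (HahnSeries.C a) = _
  rw [HahnSeries.C_apply, coeffMap_single, algebraMap_laurentSeries_eq_single]
  rfl

theorem Frac_const (c : K) : IsFrac (inc (A0 := A0) (K := K))
    (algebraMap Qb (LaurentSeries Qb) (algebraMap K Kb c)) := by
  obtain ⟨a, b, hb, rfl⟩ := IsFractionRing.div_surjective (A := A0) c
  have hb0 : b ≠ 0 := nonZeroDivisors.ne_zero hb
  have hb1 : algebraMap A0 K b ≠ 0 :=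
    (map_ne_zero_iff _ (IsFractionRing.injective A0 K)).2 hb0
  refine ⟨HahnSeries.C a, HahnSeries.C b, ?_, ?_⟩
  · intro h
    rw [HahnSeries.C_apply, HahnSeries.single_eq_zero_iff] at h
    exact hb0 h
  · rw [Frac_inc_C, Frac_inc_C, ← map_mul, ← map_mul, div_mul_cancel₀ _ hb1]

theorem Frac_jSer (d : ℕ) [NeZero d] :
    S24.jSer d = inc (A0 := A0) (K := K) (qExpand A0 d (jqModC A0)) := by
  show coeffEmb S24.Kb (qExpand ℚ d jq) = coeffMap (φ0 A0 K) (qExpand A0 d (jqModC A0))
  rw [S17.IsFFAux.coeffEmb_qExpand_jq, gauss_coeffMap_qExpand, coeffMap_jqModC]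

theorem Frac_qExpand_inc (n : ℕ) [NeZero n] (g : LaurentSeries A0) :
    qExpand Qb n (inc (A0 := A0) (K := K) g) = inc (A0 := A0) (K := K) (qExpand A0 n g) :=
  (gauss_coeffMap_qExpand (φ0 A0 K) n g).symm

theorem Frac_inc_eq_inc1 (g : LaurentSeries A0) :
    inc (A0 := A0) (K := K) g = D.inc1 (D.baseO g) := by
  ext n
  show (coeffMap (φ0 A0 K) g).coeff n = (coeffMap D.B.subtype (coeffMap D.ψ g)).coeff n
  rw [coeffMap_coeff, coeffMap_coeff, coeffMap_coeff]
  exact (D.hψ _).symm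

theorem Frac_isFrac_inc1 {x : LaurentSeries Qb} (h : IsFrac (inc (A0 := A0) (K := K)) x) :
    IsFrac D.inc1 x := by
  obtain ⟨g, h', hh, e⟩ := h
  refine ⟨D.baseO g, D.baseO h', ?_, ?_⟩
  · intro h0
    apply hh
    apply inc_injective (A0 := A0) (K := K)
    rw [D.Frac_inc_eq_inc1, h0, map_zero, map_zero]
  · rw [← D.Frac_inc_eq_inc1, ← D.Frac_inc_eq_inc1, e]

/-- divisors of `N l`. -/
theorem Frac_dvd_cases (hl : l.Prime) (d : ℕ) (hd : d ∣ N * l) :
    d ∣ N ∨ ∃ e, e ∣ N ∧ d = l * e := by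
  by_cases h : l ∣ d
  · right
    obtain ⟨e, rfl⟩ := h
    refine ⟨e, ?_, rfl⟩
    rw [mul_comm N l] at hd
    exact Nat.dvd_of_mul_dvd_mul_left hl.pos hd
  · left
    have hc : Nat.Coprime d l := ((Nat.Prime.coprime_iff_not_dvd hl).mpr h).symm
    exact hc.dvd_of_dvd_mul_right hd

theorem Frac_beta_const (M : ℕ) [NeZero M] (c : K) :
    beta K M (algebraMap K (FK K M) c) = algebraMap Qb (FF M) (algebraMap K Kb c) :=
  beta_algebraMap K M c

theorem frac' (c : FK K N) : IsFrac (inc (A0 := A0) (K := K)) (Φ' c) := by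
  refine mem_of_gen N Φ' (fracSubfield (inc (A0 := A0) (K := K)) inc_injective) ?_ ?_ c
  · intro c
    show IsFrac _ ((coeF N) (beta K N (algebraMap K (FK K N) c)))
    rw [Frac_beta_const]
    exact Frac_const c
  · intro d _ hd
    show IsFrac _ ((coeF N) (beta K N (jKd K N d hd)))
    rw [beta_jKd]
    show IsFrac _ (S24.jSer d)
    rw [Frac_jSer (A0 := A0) (K := K)]
    exact isFrac_inc _

theorem fracΨinf (c : FK K (N * l)) : IsFrac (inc (A0 := A0) (K := K)) (Ψinf (N := N) (l := l) c) := by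
  refine mem_of_gen (N * l) Ψinf (fracSubfield (inc (A0 := A0) (K := K)) inc_injective) ?_ ?_ c
  · intro c
    show IsFrac _ ((coeF (N * l)) (beta K (N * l) (algebraMap K (FK K (N * l)) c)))
    rw [Frac_beta_const]
    exact Frac_const c
  · intro d _ hd
    show IsFrac _ ((coeF (N * l)) (beta K (N * l) (jKd K (N * l) d hd)))
    rw [beta_jKd]
    show IsFrac _ (S24.jSer d)
    rw [Frac_jSer (A0 := A0) (K := K)]
    exact isFrac_inc _

/-- `jSer d` and all its `q ↦ q^n` substitutions are fractions. -/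
theorem Frac_isFrac_jSer (d : ℕ) [NeZero d] : IsFrac (inc (A0 := A0) (K := K)) (S24.jSer d) := by
  rw [Frac_jSer (A0 := A0) (K := K)]
  exact isFrac_inc _

theorem Frac_isFrac_qExpand_jSer (n d : ℕ) [NeZero n] [NeZero d] :
    IsFrac (inc (A0 := A0) (K := K)) (qExpand Qb n (S24.jSer d)) := by
  rw [Frac_jSer (A0 := A0) (K := K), Frac_qExpand_inc]
  exact isFrac_inc _

theorem Frac_isFrac_qExpand2_jSer (n m d : ℕ) [NeZero n] [NeZero m] [NeZero d] :
    IsFrac (inc (A0 := A0) (K := K)) (qExpand Qb n (qExpand Qb m (S24.jSer d))) := by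
  rw [Frac_jSer (A0 := A0) (K := K), Frac_qExpand_inc, Frac_qExpand_inc]
  exact isFrac_inc _

theorem Frac_jF_alpha (M : ℕ) [NeZero M] (d : ℕ) [NeZero d] (hd : d ∣ M) (hd' : d ∣ M * l) :
    jF (M * l) d hd' = heckeAlphaBar Qb M l (jF M d hd) := by
  apply Subtype.ext
  rfl

theorem Frac_jF_beta (M : ℕ) [NeZero M] (e : ℕ) [NeZero e] [NeZero (l * e)] (he : e ∣ M)
    (hd' : l * e ∣ M * l) :
    jF (M * l) (l * e) hd' = heckeBetaBar Qb M l (jF M e he) := by
  apply Subtype.ext
  rw [coe_heckeBetaBar]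
  exact AL2_jSer_mul l e

theorem fracΨ0 (c : FK K (N * l)) : IsFrac (inc (A0 := A0) (K := K)) (D.Ψ0 c) := by
  refine mem_of_gen (N * l) D.Ψ0 (fracSubfield (inc (A0 := A0) (K := K)) inc_injective) ?_ ?_ c
  · intro c
    show IsFrac _ ((coeF (N * l)) (D.w1 (beta K (N * l) (algebraMap K (FK K (N * l)) c))))
    rw [Frac_beta_const, AlgHom.commutes]
    exact Frac_const c
  · intro d _ hd
    show IsFrac _ ((coeF (N * l)) (D.w1 (beta K (N * l) (jKd K (N * l) d hd))))
    rw [beta_jKd]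
    rcases Frac_dvd_cases D.hl d hd with h | ⟨e, he, rfl⟩
    · rw [Frac_jF_alpha N d h hd, D.hw1.alpha]
      show IsFrac _ ((heckeBetaBar Qb N l (jF N d h) : FF (N * l)) : LaurentSeries Qb)
      rw [coe_heckeBetaBar]
      exact Frac_isFrac_qExpand_jSer l d
    · haveI : NeZero e := ⟨fun h0 => NeZero.ne (l * e) (by rw [h0, mul_zero])⟩
      rw [Frac_jF_beta N e he hd, D.hw1.beta]
      show IsFrac _ ((heckeAlphaBar Qb N l (jF N e he) : FF (N * l)) : LaurentSeries Qb)
      rw [coe_heckeAlphaBar]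
      exact Frac_isFrac_jSer e

theorem fracΦinf (c : FK K (N * l * l)) :
    IsFrac (inc (A0 := A0) (K := K)) (Φinf (N := N) (l := l) c) := by
  refine mem_of_gen (N * l * l) Φinf (fracSubfield (inc (A0 := A0) (K := K)) inc_injective) ?_ ?_ c
  · intro c
    show IsFrac _ ((coeF (N * l * l)) (beta K (N * l * l) (algebraMap K (FK K (N * l * l)) c)))
    rw [Frac_beta_const]
    exact Frac_const c
  · intro d _ hd
    show IsFrac _ ((coeF (N * l * l)) (beta K (N * l * l) (jKd K (N * l * l) d hd)))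
    rw [beta_jKd]
    show IsFrac _ (S24.jSer d)
    rw [Frac_jSer (A0 := A0) (K := K)]
    exact isFrac_inc _

theorem fracΦ0 (c : FK K (N * l * l)) : IsFrac (inc (A0 := A0) (K := K)) (D.Φ0 c) := by
  refine mem_of_gen (N * l * l) D.Φ0 (fracSubfield (inc (A0 := A0) (K := K)) inc_injective) ?_ ?_ c
  · intro c
    show IsFrac _ ((coeF (N * l * l)) (D.w2 (beta K (N * l * l)
      (algebraMap K (FK K (N * l * l)) c))))
    rw [Frac_beta_const, AlgHom.commutes]
    exact Frac_const c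
  · intro d _ hd
    show IsFrac _ ((coeF (N * l * l)) (D.w2 (beta K (N * l * l) (jKd K (N * l * l) d hd))))
    rw [beta_jKd]
    rcases Frac_dvd_cases D.hl d hd with h1 | ⟨e1, he1, rfl⟩
    · rcases Frac_dvd_cases D.hl d h1 with h | ⟨e, he, rfl⟩
      · rw [Frac_jF_alpha (N * l) d h1 hd, Frac_jF_alpha N d h h1, D.hw2.aa]
        show IsFrac _ ((heckeBetaBar Qb (N * l) l (heckeBetaBar Qb N l (jF N d h)) :
          FF (N * l * l)) : LaurentSeries Qb)
        rw [coe_heckeBetaBar, coe_heckeBetaBar]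
        exact Frac_isFrac_qExpand2_jSer l l d
      · haveI : NeZero e := ⟨fun h0 => NeZero.ne (l * e) (by rw [h0, mul_zero])⟩
        rw [Frac_jF_alpha (N * l) (l * e) h1 hd, Frac_jF_beta N e he h1, D.hw2.ab]
        show IsFrac _ ((heckeAlphaBar Qb (N * l) l (heckeBetaBar Qb N l (jF N e he)) :
          FF (N * l * l)) : LaurentSeries Qb)
        rw [coe_heckeAlphaBar, coe_heckeBetaBar]
        exact Frac_isFrac_qExpand_jSer l e
    · haveI : NeZero e1 := ⟨fun h0 => NeZero.ne (l * e1) (by rw [h0, mul_zero])⟩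
      rcases Frac_dvd_cases D.hl e1 he1 with h | ⟨e, he, rfl⟩
      · rw [Frac_jF_beta (N * l) e1 he1 hd, Frac_jF_alpha N e1 h he1, ← alpha_beta_eq, D.hw2.ab]
        show IsFrac _ ((heckeAlphaBar Qb (N * l) l (heckeBetaBar Qb N l (jF N e1 h)) :
          FF (N * l * l)) : LaurentSeries Qb)
        rw [coe_heckeAlphaBar, coe_heckeBetaBar]
        exact Frac_isFrac_qExpand_jSer l e1
      · haveI : NeZero e := ⟨fun h0 => NeZero.ne (l * e) (by rw [h0, mul_zero])⟩
        rw [Frac_jF_beta (N * l) (l * e) he1 hd, Frac_jF_beta N e he he1, D.hw2.bb]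
        show IsFrac _ ((heckeAlphaBar Qb (N * l) l (heckeAlphaBar Qb N l (jF N e he)) :
          FF (N * l * l)) : LaurentSeries Qb)
        rw [coe_heckeAlphaBar, coe_heckeAlphaBar]
        exact Frac_isFrac_jSer e

theorem Frac_twist_inc1 (ζ : Mu l) (g : LaurentSeries D.B) :
    twist (ζ : Qbˣ) (D.inc1 g) = D.inc1 (twist (D.lift ζ) g) := by
  ext n
  show (twist (ζ : Qbˣ) (coeffMap D.B.subtype g)).coeff n
    = (coeffMap D.B.subtype (twist (D.lift ζ) g)).coeff n
  rw [twist_coeff, coeffMap_coeff, coeffMap_coeff, twist_coeff, map_mul]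
  congr 1
  have h1 : Units.map D.B.subtype.toMonoidHom (D.lift ζ) = (ζ : Qbˣ) := Units.ext (D.coe_lift ζ)
  rw [← h1, ← map_zpow]
  rfl

theorem fracτ (i : Io l) (c : FK K (N * l * l)) : IsFrac D.inc1 (D.τK i c) := by
  refine mem_of_gen (N * l * l) (D.τK i) (fracSubfield D.inc1 D.inc1_injective) ?_ ?_ c
  · intro c
    show IsFrac _ (D.τ i (beta K (N * l * l) (algebraMap K (FK K (N * l * l)) c)))
    rw [Frac_beta_const, AlgHom.commutes]
    exact D.Frac_isFrac_inc1 (Frac_const c)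
  · intro d _ hd
    show IsFrac _ (D.τ i (beta K (N * l * l) (jKd K (N * l * l) d hd)))
    rw [beta_jKd]
    rcases Frac_dvd_cases D.hl d hd with h1 | ⟨e1, he1, rfl⟩
    · rw [Frac_jF_alpha (N * l) d h1 hd, (D.hτ i).alpha]
      exact D.Frac_isFrac_inc1 (Frac_isFrac_jSer d)
    · haveI : NeZero e1 := ⟨fun h0 => NeZero.ne (l * e1) (by rw [h0, mul_zero])⟩
      rcases Frac_dvd_cases D.hl e1 he1 with h | ⟨e, he, rfl⟩
      · rw [Frac_jF_beta (N * l) e1 he1 hd, Frac_jF_alpha N e1 h he1, ← alpha_beta_eq,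
          (D.hτ i).alpha, coe_heckeBetaBar]
        exact D.Frac_isFrac_inc1 (Frac_isFrac_qExpand_jSer l e1)
      · haveI : NeZero e := ⟨fun h0 => NeZero.ne (l * e) (by rw [h0, mul_zero])⟩
        rw [Frac_jF_beta (N * l) (l * e) he1 hd, Frac_jF_beta N e he he1, (D.hτ i).bb]
        show IsFrac _ (twist ((i : Mu l) : Qbˣ) (S24.jSer e))
        rw [Frac_jSer (A0 := A0) (K := K), D.Frac_inc_eq_inc1, D.Frac_twist_inc1]
        exact isFrac_inc _

end IData

end

end Fermat.Agent.S36.Val.Inst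

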