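import Fermat.Agent.S36.Val.Inst.Defs
import Fermat.Agent.S36.Val.Inst.Const
import Fermat.Agent.S36.Val.JFormal

/-!
# S36 / Val / Inst / JF : the expansions of `j0, j1, j2`   (task `S36/VI-J`)

`J = S28.J A0 = jqModC A0`.  `β (jKd d) = jF M d` (`beta_jKd`), `coe (jF M d) = jSer d`, `jSer d = qExpand Qb d (jqModC Qb)`
(`S17.IsFFAux.coeffEmb_qExpand_jq`, see the proof of `beta_jKd`), `coeffMap f (jqModC R) = jqModC S` (`coeffMap_jqModC` / `Val.coeffMap_J`).
`w1 (jF l) = jF 1`: `jF (N l) l = β̄ (jF N 1)`, `IsAL.beta`; `w2 (jF (l l)) = jF 1`: `IsAL2.bb`.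
`τ_z (jF (l l)) = twist z (J Qb)` (`IsMid.bb` with `f = jF N 1`).
`exists_D`: `z_i = lift`; `lift z_i - 1 = (zz - 1) * v`, `r1 v ≠ 0`: `z_i = zz^b`, `0 < b < l`, `v = ∑_{t<b} zz^t`, `r1 v = b ≠ 0` in `k`
(`charP_k`); `Val.exists_twist_J` for `lift z_i`; `D i = C v * D'`.
-/

set_option autoImplicit false
set_option linter.unusedSectionVars false

open ModularCurve Polynomial

namespace Fermat.Agent.S36.Val.Inst

open Fermat.Agent.ES Fermat.Agent.SS Fermat.Agent.S24 Fermat.Agent.Crux.GT.PF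
open Fermat.Agent.S36.Norm Fermat.Agent.S36.Norm.KForm Fermat.Agent.S36.Mod
open Fermat.Agent.Crux.G.QLink
open Fermat.Agent.S28 (J)

noncomputable section

namespace IData

variable {N l : ℕ} [NeZero N] [NeZero l] {A0 K k : Type} [CommRing A0] [IsDomain A0]
    [IsDiscreteValuationRing A0] [Field K] [Algebra A0 K] [IsFractionRing A0 K] [Algebra K Kb]
    [Field k] (D : IData N l A0 K k)

/-- `coe (jF M d) = J(q^d)`. -/
theorem JF_coe_jF (M d : ℕ) [NeZero d] (hd : d ∣ M) :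
    ((jF M d hd : FF M) : LaurentSeries Qb) = qExpand Qb d (J Qb) :=
  S17.IsFFAux.coeffEmb_qExpand_jq Kb d

theorem JF_inc_J : inc (A0 := A0) (K := K) (J A0) = J Qb := Val.coeffMap_J _

theorem JF_inc_V (d : ℕ) [NeZero d] :
    inc (A0 := A0) (K := K) (qExpand A0 d (J A0)) = qExpand Qb d (J Qb) := by
  show coeffMap _ _ = _
  rw [coeffMap_qExpand, Val.coeffMap_J]

theorem JF_red_J : D.red (J A0) = J k := Val.coeffMap_J _

/-- `jF (N l) l = β̄ (jF N 1)`. -/
theorem JF_jF_l (h : l ∣ N * l) :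
    jF (N * l) l h = heckeBetaBar Qb N l (jF N 1 (one_dvd _)) := by
  apply Subtype.ext
  rw [coe_heckeBetaBar, JF_coe_jF, JF_coe_jF, qExpand_one_apply]

/-- `jF (N l l) (l l) = β̄ (β̄ (jF N 1))`. -/
theorem JF_jF_ll (h : l * l ∣ N * l * l) :
    jF (N * l * l) (l * l) h
      = heckeBetaBar Qb (N * l) l (heckeBetaBar Qb N l (jF N 1 (one_dvd _))) := by
  apply Subtype.ext
  rw [coe_heckeBetaBar, coe_heckeBetaBar, JF_coe_jF, JF_coe_jF, qExpand_one_apply,
    qExpand_qExpand]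

theorem Φ'_j0 : Φ' (N := N) (K := K) j0 = inc (A0 := A0) (K := K) (J A0) := by
  rw [JF_inc_J]
  show ((beta K N (jKd K N 1 (one_dvd _)) : FF N) : LaurentSeries Qb) = _
  rw [beta_jKd, JF_coe_jF, qExpand_one_apply]

theorem Ψinf_j1 : Ψinf (N := N) (l := l) (K := K) j1
    = inc (A0 := A0) (K := K) (qExpand A0 l (J A0)) := by
  rw [JF_inc_V]
  show ((beta K (N * l) (jKd K (N * l) l (dvd_mul_left _ _)) : FF (N * l)) : LaurentSeries Qb) = _
  rw [beta_jKd, JF_coe_jF]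

theorem Ψ0_j1 : D.Ψ0 j1 = inc (A0 := A0) (K := K) (J A0) := by
  rw [JF_inc_J]
  show ((D.w1 (beta K (N * l) (jKd K (N * l) l (dvd_mul_left _ _))) : FF (N * l)) :
    LaurentSeries Qb) = _
  rw [beta_jKd, JF_jF_l, D.hw1.beta, coe_heckeAlphaBar, JF_coe_jF, qExpand_one_apply]

theorem Φinf_j2 : Φinf (N := N) (l := l) (K := K) j2
    = inc (A0 := A0) (K := K) (qExpand A0 l (qExpand A0 l (J A0))) := by
  rw [qExpand_qExpand, JF_inc_V]
  show ((beta K (N * l * l) (jKd K (N * l * l) (l * l) _) : FF (N * l * l)) :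
    LaurentSeries Qb) = _
  rw [beta_jKd, JF_coe_jF]

theorem Φ0_j2 : D.Φ0 j2 = inc (A0 := A0) (K := K) (J A0) := by
  rw [JF_inc_J]
  show ((D.w2 (beta K (N * l * l) (jKd K (N * l * l) (l * l) _)) : FF (N * l * l)) :
    LaurentSeries Qb) = _
  rw [beta_jKd, JF_jF_ll, D.hw2.bb, coe_heckeAlphaBar, coe_heckeAlphaBar, JF_coe_jF,
    qExpand_one_apply]

theorem JF_τK_j2 (i : Io l) : D.τK i j2 = twist ((i : Mu l) : Qbˣ) (J Qb) := by
  show D.τ i (beta K (N * l * l) (jKd K (N * l * l) (l * l) _)) = _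
  rw [beta_jKd, JF_jF_ll, (D.hτ i).bb, JF_coe_jF, qExpand_one_apply]

/-- `lift z_i - 1 = (zz - 1) v`, `r1 v ≠ 0`. -/
theorem JF_exists_v (i : Io l) : ∃ v : D.B,
    ((D.lift (i : Mu l) : D.Bˣ) : D.B) - 1 = ((D.zz : D.B) - 1) * v ∧ D.r1 v ≠ 0 := by
  have h1 : ((((i : Mu l) : Qbˣ) : Qb)) ^ l = 1 := by
    have := (i : Mu l).2
    rw [mem_rootsOfUnity] at this
    have h2 := congrArg Units.val this
    rwa [Units.val_pow_eq_pow_val, Units.val_one] at h2
  obtain ⟨b, hb, hi⟩ := D.hzz.eq_pow_of_pow_eq_one h1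
  have hb0 : b ≠ 0 := by
    rintro rfl
    rw [pow_zero] at hi
    apply i.2
    apply Subtype.ext
    apply Units.ext
    exact hi.symm
  have hlift : ((D.lift (i : Mu l) : D.Bˣ) : D.B) = (D.zz : D.B) ^ b := by
    apply Subtype.ext
    rw [D.coe_lift, ← hi]
    simp
  refine ⟨∑ t ∈ Finset.range b, (D.zz : D.B) ^ t, ?_, ?_⟩
  · rw [hlift, mul_comm, geom_sum_mul]
  · rw [map_sum]
    simp only [map_pow, D.hr1z, one_pow, Finset.sum_const, Finset.card_range, nsmul_eq_mul,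
      mul_one]
    have := D.charP_k
    intro h0
    rw [CharP.cast_eq_zero_iff k l] at h0
    exact hb0 (Nat.eq_zero_of_dvd_of_lt h0 hb)

theorem exists_D (i : Io l) : ∃ Di : LaurentSeries D.B,
    D.τK i j2 = D.inc1 (D.baseO (J A0) + D.lam * Di) ∧ D.red1 Di ≠ 0 := by
  obtain ⟨v, hv, hrv⟩ := D.JF_exists_v i
  obtain ⟨D', hD', hne'⟩ := Val.exists_twist_J D.r1 (D.lift (i : Mu l)) (D.r1_lift _)
  refine ⟨HahnSeries.C v * D', ?_, ?_⟩
  · have hb : D.baseO (J A0) = J D.B := Val.coeffMap_J _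
    have e1 : D.baseO (J A0) + D.lam * (HahnSeries.C v * D')
        = twist (D.lift (i : Mu l)) (J D.B) := by
      rw [hD', hb, hv, map_mul, mul_assoc]
      rfl
    rw [e1, JF_τK_j2]
    show _ = coeffMap D.B.subtype (twist (D.lift (i : Mu l)) (J D.B))
    rw [coeffMap_twist, Val.coeffMap_J]
    congr 2
    apply Units.ext
    exact (D.coe_lift _).symm
  · show coeffMap D.r1 (HahnSeries.C v * D') ≠ 0
    rw [map_mul]
    refine mul_ne_zero ?_ hne'
    intro h0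
    apply hrv
    have h1 := congrArg (fun x => x.coeff 0) h0
    simpa [coeffMap_coeff] using h1

theorem hJ : qExpand k l (D.red (J A0)) = D.red (J A0) ^ l := by
  have : Fact l.Prime := ⟨D.hl⟩
  have := D.charP_k
  rw [JF_red_J]
  exact Val.V_J k l

theorem hind1 (R : (LaurentSeries k)[X]) (hR : R.natDegree < l)
    (h0 : (R.map (qExpand k l)).eval (D.red (J A0)) = 0) : R = 0 := by
  rw [JF_red_J] at h0
  exact Val.indep_of_order l (J k) (Val.order_J k) R hR h0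

theorem hind2 (R : (LaurentSeries k)[X]) (hR : R.natDegree < l ^ 2)
    (h0 : (R.map ((qExpand k l).comp (qExpand k l))).eval (D.red (J A0)) = 0) : R = 0 := by
  rw [JF_red_J] at h0
  have e : (qExpand k l).comp (qExpand k l) = qExpand k (l ^ 2) := by
    ext1 x
    rw [RingHom.comp_apply, qExpand_qExpand]
    exact qExpand_congr (by ring) x
  rw [e] at h0
  exact Val.indep_of_order (l ^ 2) (J k) (Val.order_J k) R hR h0

theorem hne (n : ℕ) (hn : 1 < n) : D.red (J A0) ^ n ≠ D.red (J A0) := by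
  rw [JF_red_J]
  exact Val.pow_ne_self (J k) (Val.order_J k) n hn

end IData

end

end Fermat.Agent.S36.Val.Inst

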