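import Fermat.Agent.S36.Val.Inst.Defs
import Fermat.Agent.S36.Norm.KForm.Ident
import Fermat.Agent.S36.Norm.KForm.Span

/-!
# S36 / Val / Inst / Nm : norms and degrees   (task `S36/VI-Nm`)

GLUE with helper3's standalone theorems `Fermat/Agent/S36/Norm/KForm/{Ident,Span}.lean` (announced in board #2296: the norm identities
NAinf/NBinf/NA0/NB0, NmA_al/NmB_be, span1/span2 for `F_j = modularFunctionFieldFullC K (N l^j)`, `a0 = dgK K N (N*l) 1`, `al = dgK K (N*l) (N*l*l) 1`,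
`be = dgK K (N*l) (N*l*l) l`, ANY `w1 w2 tau` with `IsAL`, `IsAL2`, `IsMid`, generic index types `ι`, `μ`).
Here: `ι = Io l`, `z i = ((i : Mu l) : Qbˣ)`, `μ = Mu l`, `zz ζ = (ζ : Qbˣ)`, `ν i = ⟨i⁻¹, _⟩`.
`Fintype.card (Mu l) = l` (`card_rootsOfUnity` / `IsPrimitiveRoot.card_rootsOfUnity` with `D.hzz`), `Fintype.card (Io l) = l - 1`
(`Fintype.card_subtype_compl`-type lemma / `Fintype.card_subtype_ne`?), a non-trivial `l`-th root of unity is primitive (`l` prime: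
`IsPrimitiveRoot.of_... `, `orderOf_eq_prime`).
If helper3's files are not there yet, direct proofs:
* `NmA_al`, `NmB_be`: `Algebra.norm_algebraMap` + `degHom = l` (`degHom_dgK`, `degHom_dg_prime_dvd`).
* `NAinf`: `Norm.normHom_eq_prod` for `al` with the `l` embeddings `{Φinf} ∪ {τK i}` over `Ψinf` (distinct on `j2`).
* `NBinf`: `Vq_nmK`.
* `NA0`, `NB0`: transport by `w1`, `w2` (`normHom_equiv`, `IsAL2.alpha/beta`, `IsMid.comp_w2`).
* `span1`: `[F1 : F0] = l + 1` and `1, j1, .., j1^l` independent over `F0`.   `span2`: the same with `l² + l`.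
-/

set_option autoImplicit false
set_option linter.unusedSectionVars false

open ModularCurve Polynomial

namespace Fermat.Agent.S36.Val.Inst

open Fermat.Agent.ES Fermat.Agent.SS Fermat.Agent.S24 Fermat.Agent.Crux.GT.PF
open Fermat.Agent.S36.Norm Fermat.Agent.S36.Norm.KForm Fermat.Agent.S36.Mod
open Fermat.Agent.Crux.G.QLink

noncomputable section

namespace IData

variable {N l : ℕ} [NeZero N] [NeZero l] {A0 K k : Type} [CommRing A0] [IsDomain A0]
    [IsDiscreteValuationRing A0] [Field K] [Algebra A0 K] [IsFractionRing A0 K] [Algebra K Kb]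
    [Field k] (D : IData N l A0 K k)

include D in
theorem card_Mu : Fintype.card (Mu l) = l := by
  rw [← Nat.card_eq_fintype_card]
  exact IsPrimitiveRoot.card_rootsOfUnity D.hzz

include D in
theorem card_Io : Fintype.card (Io l) = l - 1 := by
  classical
  have h := Fintype.card_subtype_compl (fun z : Mu l => z = 1)
  rw [Fintype.card_subtype_eq, D.card_Mu] at h
  rw [← h]

include D in
theorem isPrimitiveRoot_Io (i : Io l) : IsPrimitiveRoot (((i : Mu l) : Qbˣ) : Qb) l := by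
  have : Fact l.Prime := ⟨D.hl⟩
  have h1 : ((i : Mu l) : Qbˣ) ^ l = 1 := (mem_rootsOfUnity _ _).1 (i : Mu l).2
  have h2 : ((i : Mu l) : Qbˣ) ≠ 1 := fun h => i.2 (Subtype.ext h)
  have h3 := orderOf_eq_prime h1 h2
  have h4 : IsPrimitiveRoot ((i : Mu l) : Qbˣ) l := by
    have h5 := IsPrimitiveRoot.orderOf ((i : Mu l) : Qbˣ)
    rwa [h3] at h5
  exact IsPrimitiveRoot.coe_units_iff.2 h4

theorem Nm_inj_Io : Function.Injective (fun i : Io l => ((i : Mu l) : Qbˣ)) :=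
  fun _ _ h => Subtype.ext (Subtype.ext h)

theorem Nm_inj_Mu : Function.Injective (fun ζ : Mu l => (ζ : Qbˣ)) :=
  fun _ _ h => Subtype.ext h

theorem Nm_pow_Mu (ζ : Mu l) : (ζ : Qbˣ) ^ l = 1 := (mem_rootsOfUnity _ _).1 ζ.2

include D in
theorem NmA_al (y : FK K (N * l)) : NmA (N := N) (l := l) (al y) = y ^ l :=
  nmK_al K D.hl (dvd1 (N * l) l) y

include D in
theorem NmB_be (y : FK K (N * l)) : NmB (N := N) (l := l) (be y) = y ^ l :=
  nmK_be K D.hl (dvdl (N * l) l) y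

theorem NAinf (y : FK K (N * l * l)) :
    Ψinf (N := N) (l := l) (NmA y) = Φinf y * ∏ i : Io l, D.τK i y :=
  Fermat.Agent.S36.Norm.KForm.NAinf K (fun i : Io l => ((i : Mu l) : Qbˣ)) D.τ D.hl
    (dvd1 (N * l) l) Nm_inj_Io D.card_Io D.hτ y

include D in
theorem NBinf (y : FK K (N * l * l)) :
    qExpand Qb l (Ψinf (N := N) (l := l) (NmB y)) = ∏ ζ : Mu l, twist (ζ : Qbˣ) (Φinf y) :=
  Fermat.Agent.S36.Norm.KForm.NBinf K (fun ζ : Mu l => (ζ : Qbˣ)) D.hl (dvdl (N * l) l)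
    Nm_pow_Mu Nm_inj_Mu D.card_Mu y

theorem NA0 (y : FK K (N * l * l)) :
    qExpand Qb l (D.Ψ0 (NmA y)) = ∏ ζ : Mu l, twist (ζ : Qbˣ) (D.Φ0 y) :=
  Fermat.Agent.S36.Norm.KForm.NA0 K (fun ζ : Mu l => (ζ : Qbˣ)) D.hw1 D.hw2 D.hl D.hN
    (dvd1 (N * l) l) Nm_pow_Mu Nm_inj_Mu D.card_Mu y

theorem NB0 (y : FK K (N * l * l)) :
    D.Ψ0 (NmB y) = D.Φ0 y * ∏ i : Io l, twist ((i : Mu l) : Qbˣ) (D.τK (ν i) y) :=
  Fermat.Agent.S36.Norm.KForm.NB0 K (fun i : Io l => ((i : Mu l) : Qbˣ)) D.τ ν D.hw1 D.hw2 D.hl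
    D.hN (dvdl (N * l) l) Nm_inj_Io D.card_Io D.hτ (fun i => Nm_pow_Mu (i : Mu l))
    (fun _ => rfl) y

include D in
theorem span1 (y : FK K (N * l)) : ∃ c : ℕ → FK K N,
    y = ∑ s ∈ Finset.range (l + 1), a0 (c s) * j1 ^ s :=
  Fermat.Agent.S36.Norm.KForm.span1 K D.hl D.hN (dvd1 N l) y

include D in
theorem span2 (y : FK K (N * l * l)) : ∃ c : ℕ → FK K N,
    y = ∑ s ∈ Finset.range (l ^ 2 + (l - 1) + 1), al (a0 (c s)) * j2 ^ s :=
  Fermat.Agent.S36.Norm.KForm.span2 K D.hl D.hN (dvd1 N l) (dvd1 (N * l) l) y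

end IData

end

end Fermat.Agent.S36.Val.Inst
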