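import Fermat.Agent.S36.Val.Inst.Defs
import Fermat.Agent.S36.Val.Inst.Compat
import Fermat.Agent.S36.Val.Inst.Frac
import Fermat.Agent.S36.Val.Inst.Const
import Fermat.Agent.S36.Val.Inst.JF
import Fermat.Agent.S36.Val.Inst.Nm

/-!
# S36 / Val / Inst / Setup : the modular instance of `Val.Setup`  (assembly)
-/

set_option autoImplicit false
set_option linter.unusedSectionVars false

open ModularCurve Polynomial

namespace Fermat.Agent.S36.Val.Inst

open Fermat.Agent.ES Fermat.Agent.SS Fermat.Agent.S24 Fermat.Agent.Crux.GT.PF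
open Fermat.Agent.S36.Norm Fermat.Agent.S36.Norm.KForm Fermat.Agent.S36.Mod
open Fermat.Agent.Crux.G.QLink
open Fermat.Agent.S28 (J)

noncomputable section

namespace IData

variable {N l : ℕ} [NeZero N] [NeZero l] {A0 K k : Type} [CommRing A0] [IsDomain A0]
    [IsDiscreteValuationRing A0] [Field K] [Algebra A0 K] [IsFractionRing A0 K] [Algebra K Kb]
    [Field k] (D : IData N l A0 K k)

theorem coeffMap_C' {R S : Type*} [CommRing R] [CommRing S] (f : R →+* S) (a : R) :
    coeffMap f (HahnSeries.C a) = HahnSeries.C (f a) := by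
  rw [HahnSeries.C_apply, coeffMap_single, HahnSeries.C_apply]

theorem φ0_injective : Function.Injective (φ0 A0 K) :=
  (algebraMap K Kb).injective.comp (IsFractionRing.injective A0 K)

theorem map_lift (ζ : Mu l) : Units.map D.B.subtype.toMonoidHom (D.lift ζ) = (ζ : Qbˣ) :=
  Units.ext (D.coe_lift ζ)

/-- the correction term of `τ_i j2`. -/
def Dd (i : Io l) : LaurentSeries D.B := (D.exists_D i).choose

theorem τ_j2 (i : Io l) : D.τK i j2 = D.inc1 (D.baseO (J A0) + D.lam * D.Dd i) :=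
  (D.exists_D i).choose_spec.1

theorem red1_Dd (i : Io l) : D.red1 (D.Dd i) ≠ 0 := (D.exists_D i).choose_spec.2

/-- **the modular instance of `Val.Setup`.** -/
def setup : Setup l K (FK K N) (FK K (N * l)) (FK K (N * l * l)) (LaurentSeries Qb)
    (LaurentSeries A0) (LaurentSeries k) (LaurentSeries Qb) (LaurentSeries D.B) (Io l) (Mu l) :=
  haveI := D.dvr
  { inc := inc (A0 := A0) (K := K)
    red := D.red
    ϖ := HahnSeries.C (l : A0)
    P := isPlace_gauss (φ0 A0 K) D.r φ0_injective D.hr D.hπ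
    inc1 := D.inc1
    red1 := D.red1
    lam := D.lam
    P1 := isPlace_gauss D.B.subtype D.r1 Subtype.val_injective D.hr1 D.hlam
    base := RingHom.id _
    baseO := D.baseO
    hbase := placeHom_base (φ0 A0 K) D.r D.ψ D.B.subtype D.r1 D.hψ D.hr1ψ
    u := HahnSeries.C (D.u : D.B)
    hu := by
      show coeffMap D.r1 (HahnSeries.C (D.u : D.B)) ≠ 0
      rw [coeffMap_C']
      intro h
      have h1 : D.r1 (D.u : D.B) = 0 := by
        have := congrArg (fun z => HahnSeries.coeff z 0) h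
        simpa using this
      exact ((D.u.isUnit.map D.r1).ne_zero) h1
    hϖ := by
      show coeffMap D.ψ (HahnSeries.C (l : A0)) = HahnSeries.C (D.u : D.B) * (HahnSeries.C ((D.zz : D.B) - 1)) ^ (l - 1)
      rw [coeffMap_C', map_natCast, D.hu, map_mul, map_pow]
    hlϖ := by
      rw [map_natCast]
    V := qExpand Qb l
    VO := qExpand A0 l
    Vκ := qExpand k l
    hV := placeHom_V (φ0 A0 K) D.r l
    hVϖ := qExpand_C l _
    tw := fun ζ => twist (ζ : Qbˣ)
    twO := fun ζ => twist (D.lift ζ)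
    htw := fun ζ => by
      have := placeHom_twist D.B.subtype D.r1 (D.lift ζ) (D.r1_lift ζ)
      rwa [D.map_lift] at this
    htwlam := fun ζ => twist_C _ _
    card_μ := D.card_Mu
    card_ι := D.card_Io
    cst := cst
    a0 := a0
    al := al
    be := be
    NmA := NmA
    NmB := NmB
    Φ' := Φ'
    Ψinf := Ψinf
    Ψ0 := D.Ψ0
    Φinf := Φinf
    Φ0 := D.Φ0
    τ := D.τK
    frac' := frac'
    fracΨinf := fracΨinf
    fracΨ0 := D.fracΨ0
    fracΦinf := fracΦinf
    fracΦ0 := D.fracΦ0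
    fracτ := D.fracτ
    Ψinf_a0 := Ψinf_a0
    Ψ0_a0 := D.Ψ0_a0
    Φinf_al := Φinf_al
    Φinf_be := Φinf_be
    Φ0_al := D.Φ0_al
    Φ0_be := D.Φ0_be
    τ_al := D.τ_al
    ζ := fun i => (i : Mu l)
    ν := ν
    τ_be := D.τ_be
    be_cst := be_cst
    π := (l : K)
    Φ'_π := Φ'_π
    hK := D.hK
    J := J A0
    D := D.Dd
    hD := D.red1_Dd
    j0 := j0
    j1 := j1
    j2 := j2
    Φ'_j0 := Φ'_j0
    Ψinf_j1 := Ψinf_j1
    Ψ0_j1 := D.Ψ0_j1
    Φinf_j2 := Φinf_j2
    Φ0_j2 := D.Φ0_j2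
    τ_j2 := D.τ_j2
    hJ := D.hJ
    hind1 := D.hind1
    hind2 := D.hind2
    hne := D.hne
    span1 := D.span1
    span2 := D.span2
    NmA_al := D.NmA_al
    NmB_be := D.NmB_be
    NAinf := D.NAinf
    NBinf := D.NBinf
    NA0 := D.NA0
    NB0 := D.NB0
    hK1 := D.tame1
    hμ := D.hμ
    V_cst := V_cst
    NmA_eq := fun _ => rfl
    NmB_eq := fun _ => rfl }

end IData

end

end Fermat.Agent.S36.Val.Inst
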