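import Fermat.Agent.S36.Val.Inst.Defs
import Fermat.Agent.S36.Val.Inst.Frac

/-!
# S36 / Val / Inst / WK : the Atkin-Lehner involutions descend to the `K`-level fields   (task `S36/VI-WK`)

(needed by `Mod.QData`: `w1 : F1 →+* F1`, `w2 : F2 →+* F2` with `Ψ0 = Ψinf ∘ w1`, `Φ0 = Φinf ∘ w2`.)

`KSer` = the subfield of `ℚ̄((q))` of the series with coefficients in `K` = range of `coeffMap (algebraMap K Kb)` (a field hom).
`Ψ0_mem`, `Φ0_mem`: `mem_of_gen` (`Inst/Frac.lean`): constants: `w` is a `ℚ̄`-algebra hom, `β (algebraMap c) = algebraMap (algebraMap K Kb c)`;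
generators: `w1 (jF (N l) d) = jF (N l) d'` as in `Frac.lean` (write `d = e` or `e l`, `e ∣ N`: `jF (N l) e = α (jF N e)`, `jF (N l) (e l) = β̄ (jF N e)`,
`IsAL.alpha/beta`), and `coe (jF M d') = jSer d' = coeffMap (algebraMap K Kb) (qExpand K d' (jqModC K))` (`beta_jKd` + `beta_coe`).
`exists_w1K`: `KForm.exists_beta_eq` gives for each `f` a preimage of `w1 (β f)`; choose; ring hom by injectivity of `β` (`beta_injective`).
-/

set_option autoImplicit false
set_option linter.unusedSectionVars false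

open ModularCurve Polynomial

namespace Fermat.Agent.S36.Val.Inst

open Fermat.Agent.ES Fermat.Agent.SS Fermat.Agent.S24 Fermat.Agent.Crux.GT.PF
open Fermat.Agent.S36.Norm Fermat.Agent.S36.Norm.KForm Fermat.Agent.S36.Mod
open Fermat.Agent.Crux.G.QLink

noncomputable section

namespace IData

variable {N l : ℕ} [NeZero N] [NeZero l] {A0 K k : Type} [CommRing A0] [IsDomain A0]
    [IsDiscreteValuationRing A0] [Field K] [Algebra A0 K] [IsFractionRing A0 K] [Algebra K Kb]
    [Field k] (D : IData N l A0 K k)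

/-- the series with coefficients in `K`. -/
def KSer (K : Type) [Field K] [Algebra K Kb] : Subfield (LaurentSeries Qb) :=
  (coeffMap (algebraMap K Kb)).fieldRange

/-- abstract lifting of a ring hom through an injective ring hom. -/
theorem WK_lift {R S : Type*} [Ring R] [Ring S] (β : R →+* S) (hβ : Function.Injective β)
    (φ : R →+* S) (h : ∀ f, ∃ f', β f' = φ f) : ∃ w : R →+* R, ∀ f, β (w f) = φ f := by
  choose w hw using h
  refine ⟨{ toFun := w, map_one' := ?_, map_mul' := ?_, map_zero' := ?_, map_add' := ?_ }, hw⟩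
  · apply hβ; rw [hw, map_one, map_one]
  · intro x y; apply hβ; rw [hw, map_mul, map_mul, hw, hw]
  · apply hβ; rw [hw, map_zero, map_zero]
  · intro x y; apply hβ; rw [hw, map_add, map_add, hw, hw]

/-- `w1 (β f)` is fixed by `Gal(ℚ̄/K)`, hence comes from `F_K`. -/
theorem WK_exists1 (f : FK K (N * l)) :
    ∃ f' : FK K (N * l), beta K (N * l) f' = D.w1 (beta K (N * l) f) :=
  exists_beta_eq_of_fixed K (N * l) _ fun σ => by
    rw [D.hw1.galF_comm D.hl, KForm.galF_beta]

theorem WK_exists2 (f : FK K (N * l * l)) :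
    ∃ f' : FK K (N * l * l), beta K (N * l * l) f' = D.w2 (beta K (N * l * l) f) :=
  exists_beta_eq_of_fixed K (N * l * l) _ fun σ => by
    rw [D.hw2.galF_comm D.hl D.hN, KForm.galF_beta]

theorem Ψ0_mem (f : FK K (N * l)) : D.Ψ0 f ∈ KSer K := by
  obtain ⟨f', hf'⟩ := D.WK_exists1 f
  refine ⟨(f' : LaurentSeries K), ?_⟩
  show _ = (coeF (N * l)) (D.w1 (beta K (N * l) f))
  rw [← hf']
  rfl

theorem Φ0_mem (f : FK K (N * l * l)) : D.Φ0 f ∈ KSer K := by
  obtain ⟨f', hf'⟩ := D.WK_exists2 f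
  refine ⟨(f' : LaurentSeries K), ?_⟩
  show _ = (coeF (N * l * l)) (D.w2 (beta K (N * l * l) f))
  rw [← hf']
  rfl

theorem exists_w1K : ∃ w : FK K (N * l) →+* FK K (N * l),
    ∀ f, beta K (N * l) (w f) = D.w1 (beta K (N * l) f) := by
  exact WK_lift (beta K (N * l)) (beta_injective K (N * l))
    (D.w1.toRingHom.comp (beta K (N * l))) D.WK_exists1

theorem exists_w2K : ∃ w : FK K (N * l * l) →+* FK K (N * l * l),
    ∀ f, beta K (N * l * l) (w f) = D.w2 (beta K (N * l * l) f) := by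
  exact WK_lift (beta K (N * l * l)) (beta_injective K (N * l * l))
    (D.w2.toRingHom.comp (beta K (N * l * l))) D.WK_exists2

def w1K : FK K (N * l) →+* FK K (N * l) := D.exists_w1K.choose
def w2K : FK K (N * l * l) →+* FK K (N * l * l) := D.exists_w2K.choose

theorem beta_w1K (f : FK K (N * l)) : beta K (N * l) (D.w1K f) = D.w1 (beta K (N * l) f) :=
  D.exists_w1K.choose_spec f

theorem beta_w2K (f : FK K (N * l * l)) :
    beta K (N * l * l) (D.w2K f) = D.w2 (beta K (N * l * l) f) :=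
  D.exists_w2K.choose_spec f

theorem Ψ0_eq (f : FK K (N * l)) : D.Ψ0 f = Ψinf (N := N) (l := l) (D.w1K f) := by
  show _ = (coeF (N * l)) (beta K (N * l) (D.w1K f))
  rw [D.beta_w1K]
  rfl

theorem Φ0_eq (f : FK K (N * l * l)) : D.Φ0 f = Φinf (N := N) (l := l) (D.w2K f) := by
  show _ = (coeF (N * l * l)) (beta K (N * l * l) (D.w2K f))
  rw [D.beta_w2K]
  rfl

/-- `w1`, `w2` fix the constants. -/
theorem w1K_cst (c : K) : D.w1K (algebraMap K (FK K (N * l)) c) = algebraMap K (FK K (N * l)) c := by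
  apply beta_injective K (N * l)
  rw [D.beta_w1K, beta_algebraMap]
  exact D.w1.commutes _

theorem w2K_cst (c : K) :
    D.w2K (algebraMap K (FK K (N * l * l)) c) = algebraMap K (FK K (N * l * l)) c := by
  apply beta_injective K (N * l * l)
  rw [D.beta_w2K, beta_algebraMap]
  exact D.w2.commutes _

/-- involutions. -/
theorem w1K_w1K (f : FK K (N * l)) : D.w1K (D.w1K f) = f := by
  apply beta_injective K (N * l)
  rw [D.beta_w1K, D.beta_w1K, D.hw1.invol D.hl]

theorem w2K_w2K (f : FK K (N * l * l)) : D.w2K (D.w2K f) = f := by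
  apply beta_injective K (N * l * l)
  rw [D.beta_w2K, D.beta_w2K, D.hw2.invol D.hl D.hN]

/-- the exchange of the degeneracy maps. -/
theorem w1K_a0 (c : FK K N) : D.w1K (a0 c) = b0 c := by
  apply beta_injective K (N * l)
  rw [D.beta_w1K]
  show D.w1 (beta K (N * l) (dgK K N (N * l) 1 (dvd1 N l) c))
    = beta K (N * l) (dgK K N (N * l) l (dvdl N l) c)
  rw [beta_dgK, beta_dgK, dg_eq_alpha, dg_eq_beta, D.hw1.alpha]

theorem w1K_b0 (c : FK K N) : D.w1K (b0 c) = a0 c := by
  apply beta_injective K (N * l)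
  rw [D.beta_w1K]
  show D.w1 (beta K (N * l) (dgK K N (N * l) l (dvdl N l) c))
    = beta K (N * l) (dgK K N (N * l) 1 (dvd1 N l) c)
  rw [beta_dgK, beta_dgK, dg_eq_alpha, dg_eq_beta, D.hw1.beta]

theorem w2K_al (h : FK K (N * l)) : D.w2K (al h) = be (D.w1K h) := by
  apply beta_injective K (N * l * l)
  rw [D.beta_w2K]
  show D.w2 (beta K (N * l * l) (dgK K (N * l) (N * l * l) 1 (dvd1 (N * l) l) h))
    = beta K (N * l * l) (dgK K (N * l) (N * l * l) l (dvdl (N * l) l) (D.w1K h))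
  rw [beta_dgK, beta_dgK, dg_eq_alpha, dg_eq_beta, D.hw2.alpha D.hw1 D.hl, D.beta_w1K]

theorem w2K_be (h : FK K (N * l)) : D.w2K (be h) = al (D.w1K h) := by
  apply beta_injective K (N * l * l)
  rw [D.beta_w2K]
  show D.w2 (beta K (N * l * l) (dgK K (N * l) (N * l * l) l (dvdl (N * l) l) h))
    = beta K (N * l * l) (dgK K (N * l) (N * l * l) 1 (dvd1 (N * l) l) (D.w1K h))
  rw [beta_dgK, beta_dgK, dg_eq_alpha, dg_eq_beta, D.hw2.beta D.hw1 D.hl, D.beta_w1K]

end IData

end

end Fermat.Agent.S36.Val.Inst
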