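import Fermat.Agent.S36.Val.Inst.KeyK
import Fermat.Agent.S36.Mod.Inst.QInst
import Fermat.Agent.S36.Mod.Inst.Insep
import Fermat.Agent.S36.Unr.CuspEx
import Fermat.Agent.S36.Unr.Extra

/-!
# S36 / Val / Inst / InputsProof : `InputsHyp`, and `Top.KeyK`
-/

set_option autoImplicit false
set_option linter.unusedSectionVars false

open ModularCurve Polynomial AlgebraicCurve

namespace Fermat.Agent.S36.Val.Inst

open Fermat.Agent.ES Fermat.Agent.SS Fermat.Agent.S24 Fermat.Agent.Crux.GT.PF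
open Fermat.Agent.S36.Norm Fermat.Agent.S36.Norm.KForm Fermat.Agent.S36.Mod
open Fermat.Agent.Crux.G Fermat.Agent.Crux.G.QLink Fermat.Agent.S36.R Fermat.Agent.S36.Top
open Fermat.Agent.S36.Base
open Fermat.Agent.Crux.GM (castS GoodCoord HauptData)
open Fermat.Agent.S36.Mod.Inst (EK xE HasX algEF algAE algAF)

noncomputable section

attribute [local instance] algEF algAE algAF

variable {N l : ℕ} [NeZero N] [NeZero l] {A0 K k : Type} [CommRing A0] [IsDomain A0]
    [IsDiscreteValuationRing A0] [Field K] [Algebra A0 K] [IsFractionRing A0 K] [Algebra K Kb]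
    [Field k]

/-- an integer prime to `l` is a unit of `A0`. -/
theorem isUnit_intCast (D : IData N l A0 K k) (a : ℤ) (ha : ¬ (l : ℤ) ∣ a) : IsUnit (a : A0) := by
  by_contra hnu
  have h1 : (a : A0) ∈ IsLocalRing.maximalIdeal A0 := (IsLocalRing.mem_maximalIdeal _).2 hnu
  rw [D.hπ.maximalIdeal_eq, Ideal.mem_span_singleton] at h1
  obtain ⟨b, hb⟩ := h1
  have h2 : D.r (a : A0) = 0 := by rw [hb, map_mul, D.r_l, zero_mul]
  rw [map_intCast] at h2
  have := D.charP_k
  exact ha ((CharP.intCast_eq_zero_iff k l a).1 h2)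

theorem coeffMap_castS_fix (τK : K →+* K) (zh : LaurentSeries ℤ) :
    coeffMap τK (castS K zh) = castS K zh := by
  ext n
  simp only [coeffMap_coeff, eq_intCast, map_intCast]

theorem inputsHyp : InputsHyp := by
  intro M0 e l _ _ _ _ h P β n hd hcard h49 hβ hP0 hx A0 K k _ _ _ _ _ _ _ _ _ _ D τK τA h1 h2
    _ _ _ _ _ _ _ i₀
  have hl := D.hl
  have hlM : ¬ l ∣ M0 := fun hdvd => D.hN (hdvd.mul_right e)
  have hP0' : P.eval 0 ≠ 0 := fun h0 => hP0 (by rw [h0]; exact dvd_zero _)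
  obtain ⟨yh, hy⟩ := exists_inv_series hx.leading
  have D0 : QData D.setup i₀ IData.b0 D.w1K D.w2K (l : A0) (xE K (S28.V ℤ e h)) :=
    Inst.qdata_x D hx i₀ (IntUnit.D6a M0 l h P β hd hcard hl hlM K e hP0')
      (Inst.insep D τK τA h1 h2 (fun _ => rfl) _ (by
        rw [Inst.coe_algebraMap_EF, Inst.coe_xE, coeffMap_castS_fix]))
  have Dinf : QData D.setup i₀ IData.b0 D.w1K D.w2K (l : A0) (xE K (S28.V ℤ e h))⁻¹ :=
    Inst.qdata_inv D hx i₀ (IntUnit.D6b M0 l h P β hd hcard hl hlM K e (isUnit_intCast D _ hP0))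
      (Inst.insep D τK τA h1 h2 (fun _ => rfl) _ (by
        rw [Inst.coe_algebraMap_EF, coe_xE_inv _ yh hy, coeffMap_castS_fix]))
  have ha0 : ∀ f : FK K (M0 * e), ((D.setup.a0 f : FK K (M0 * e * l)) : LaurentSeries K) = f :=
    fun f => WK.coe_dgK_one K (IData.dvd1 (M0 * e) l) f
  have hb0 : ∀ f : FK K (M0 * e), ((IData.b0 f : FK K (M0 * e * l)) : LaurentSeries K)
      = qExpand K l (f : LaurentSeries K) := fun f => rfl
  have hal : ∀ f : FK K (M0 * e * l),
      ((D.setup.al f : FK K (M0 * e * l * l)) : LaurentSeries K) = f :=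
    fun f => WK.coe_dgK_one K (IData.dvd1 (M0 * e * l) l) f
  have hcop : Nat.Coprime (M0 * e) l := ((Nat.Prime.coprime_iff_not_dvd hl).2 D.hN).symm
  have hid : Unr.evZ (castS K (S28.V ℤ e h)) P
      = qExpand K (M0 * e) (jqModC K) * castS K (S28.V ℤ e h) := by
    have h3 := Fermat.Agent.Crux.GM.CoordHAux.ident_castS K M0 e h P hd.ident
    rw [aeval_def, eval₂_map] at h3
    have h4 : (algebraMap K (LaurentSeries K)).comp (Int.castRingHom K)
        = Int.castRingHom (LaurentSeries K) := RingHom.ext_int _ _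
    rw [h4] at h3
    exact h3
  obtain ⟨a₀, b₀, k₀, m₀, c0⟩ := Unr.exists_cuspIn_x D0 hl ha0 hb0 hal P hd.monic
    (isUnit_intCast D _ hP0) (by rw [Inst.coe_algebraMap_EF, Inst.coe_xE]; exact hid)
  obtain ⟨a₁, b₁, k₁, m₁, c1⟩ := Unr.exists_cuspIn_inv Dinf hl ha0 hb0 hal P hd.monic
    (le_trans (by norm_num) hd.deg) (castS K (S28.V ℤ e h)) (by
      rw [Inst.coe_algebraMap_EF, coe_xE_inv _ yh hy, mul_comm, ← map_mul, hy, map_one]) hid
  exact ⟨D0, Dinf, c0.unr1 hl.two_le h49, c0.unr2 hl hcop h49, c1.unr1 hl.two_le h49,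
    c1.unr2 hl hcop h49⟩

/-- **`Top.KeyK`.** -/
theorem keyK : KeyK := keyK_of_inputs inputsHyp

end

end Fermat.Agent.S36.Val.Inst
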