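import Fermat.Agent.S36.Val.Inst.Defs
import Fermat.Agent.S36.Val.Eis
import Fermat.Agent.S36.Base.Tame
import Fermat.Agent.S36.Base.Dvr
import Fermat.Agent.S36.Base.Residue

/-!
# S36 / Val / Inst / Exists : `IData` exists for `(A0 A, L0 A, κ(A))`   (task `S36/VI-Exists`)

* `tame2`: `γ^m = 1` in `κ(A)`, `l ∤ m`.  Let `ζ ∈ ℚ̄` be a primitive `m`-th root of unity; all `m`-th roots of unity lie in `A` (`Base.mem_of_pow_mem`)
  and in `L0 A` (`Base.mem_L0_of_pow_eq_one`).  In `A[X]`: `X^m - 1 = ∏_{η ∈ nthRootsFinset m 1} (X - C η)` (`X_pow_sub_one_eq_prod`, `A` a domain);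
  map to `κ(A)[X]`, evaluate at `γ`: some `γ - residue η = 0`.  `a := ⟨⟨η, _⟩, _⟩ : A0 A`; `resA0 A a = residue η` by `rfl`.
-/

set_option autoImplicit false
set_option linter.unusedSectionVars false

open ModularCurve Polynomial

namespace Fermat.Agent.S36.Val.Inst

open Fermat.Agent.ES Fermat.Agent.SS Fermat.Agent.S24 Fermat.Agent.Crux.GT.PF
open Fermat.Agent.S36.Norm Fermat.Agent.S36.Norm.KForm Fermat.Agent.S36.Mod Fermat.Agent.S36.Base

noncomputable section

theorem exists_tame2 (l : ℕ) (hl : l.Prime) (A : ValuationSubring Qb) (hA : A.LiesOverPrime l)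
    (m : ℕ) (hm : 0 < m) (hlm : l.Coprime m) (γ : IsLocalRing.ResidueField A) (hγ : γ ^ m = 1) :
    ∃ a : A0 A, a ^ m = 1 ∧ resA0 A a = γ := by
  classical
  have : NeZero m := ⟨hm.ne'⟩
  have hlm' : ¬ l ∣ m := fun h => hl.one_lt.ne' (Nat.Coprime.eq_one_of_dvd hlm h)
  obtain ⟨ζ, hζ⟩ := HasEnoughRootsOfUnity.exists_primitiveRoot Qb m
  have hζA : ζ ∈ A := mem_of_pow_mem hm.ne' (by rw [hζ.pow_eq_one]; exact A.one_mem)
  let z : A := ⟨ζ, hζA⟩
  have hz : IsPrimitiveRoot z m :=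
    IsPrimitiveRoot.of_map_of_injective (f := A.subtype) hζ Subtype.val_injective
  have hprod := X_pow_sub_one_eq_prod hm hz
  have h1 := congrArg (fun p : A[X] => (p.map (IsLocalRing.residue A)).eval γ) hprod
  simp only [Polynomial.map_sub, Polynomial.map_pow, Polynomial.map_X, Polynomial.map_one,
    eval_sub, eval_pow, eval_X, eval_one, hγ, sub_self, Polynomial.map_prod, eval_prod,
    Polynomial.map_C, eval_C] at h1
  obtain ⟨η, hη, hη0⟩ := Finset.prod_eq_zero_iff.1 h1.symm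
  have hηm : η ^ m = 1 := (Polynomial.mem_nthRootsFinset hm _).1 hη
  have hηm' : (η : Qb) ^ m = 1 := by
    have := congrArg (fun x : A => (x : Qb)) hηm
    simpa using this
  have hηL : (η : Qb) ∈ L0 A := mem_L0_of_pow_eq_one hl hA hlm' hηm'
  refine ⟨⟨⟨(η : Qb), hηL⟩, η.2⟩, ?_, ?_⟩
  · apply Subtype.ext
    apply Subtype.ext
    exact hηm'
  · rw [sub_eq_zero] at hη0
    rw [hη0]
    rfl

theorem exists_primitiveRoot_Qb (l : ℕ) [NeZero l] : ∃ z : Qb, IsPrimitiveRoot z l :=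
  HasEnoughRootsOfUnity.exists_primitiveRoot Qb l

theorem isPrimitiveRoot_of_ne_one (l : ℕ) [NeZero l] (hl : l.Prime) (i : Io l) :
    IsPrimitiveRoot (((i : Mu l) : Qbˣ) : Qb) l := by
  have h1 : ((i : Mu l) : Qbˣ) ^ l = 1 := (mem_rootsOfUnity _ _).1 (i : Mu l).2
  have h2 : ((i : Mu l) : Qbˣ) ≠ 1 := fun h => i.2 (Subtype.ext h)
  have h3 : orderOf ((i : Mu l) : Qbˣ) = l :=
    (hl.eq_one_or_self_of_dvd _ (orderOf_dvd_of_pow_eq_one h1)).resolve_left
      (fun h => h2 (orderOf_eq_one_iff.1 h))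
  have h4 := IsPrimitiveRoot.orderOf ((i : Mu l) : Qbˣ)
  rw [h3] at h4
  exact IsPrimitiveRoot.coe_units_iff.2 h4

theorem exists_idata (N l : ℕ) [NeZero N] [NeZero l] (hl : l.Prime) (hN : ¬ l ∣ N)
    (A : ValuationSubring Qb) (hA : A.LiesOverPrime l) [IsDiscreteValuationRing (A0 A)] :
    Nonempty (IData N l (A0 A) (L0 A) (IsLocalRing.ResidueField A)) := by
  obtain ⟨z, hz⟩ := exists_primitiveRoot_Qb l
  obtain ⟨B, dvr, ψ, r1, zz, u, h1, h2, h3, h4, h5, h6, h7⟩ :=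
    exists_cycExt (IData.φ0 (A0 A) (L0 A))
      ((algebraMap (L0 A) Kb).injective.comp (IsFractionRing.injective (A0 A) (L0 A)))
      (resA0 A) (resA0_surjective hl hA) l hl (irreducible_natCast hl hA) z hz
  obtain ⟨w1, hw1⟩ := exists_isAL N l hl hN
  obtain ⟨w2, hw2⟩ := exists_isAL2 (N := N) hl hN
  choose τ hτ using fun i : Io l =>
    exists_isMid (N := N) hl hN ((i : Mu l) : Qbˣ) (isPrimitiveRoot_of_ne_one l hl i)
  exact ⟨{
    hl := hl
    hN := hN
    r := resA0 A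
    hr := resA0_surjective hl hA
    hπ := irreducible_natCast hl hA
    B := B
    dvr := dvr
    ψ := ψ
    r1 := r1
    zz := zz
    u := u
    hψ := h1
    hzz := h2 ▸ hz
    hr1 := h3
    hr1ψ := h4
    hr1z := h5
    hlam := h6
    hu := h7
    w1 := w1
    hw1 := hw1
    w2 := w2
    hw2 := hw2
    τ := τ
    hτ := hτ
    roots := fun m hm a => IsAlgClosed.exists_pow_nat_eq a hm
    tame1 := fun m hm hlm c hc => by
      obtain ⟨n, e, -, -, h⟩ := exists_zpow_mul_pow hl hA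
        (m := m) (fun h => hl.one_lt.ne' (Nat.Coprime.eq_one_of_dvd hlm h)) c hc
      exact ⟨n, e, h⟩
    tame2 := fun m hm hlm γ hγ => exists_tame2 l hl A hA m hm hlm γ hγ }⟩

end

end Fermat.Agent.S36.Val.Inst
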