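import Fermat.Agent.S36.Val.Inst.Final2
import Fermat.Agent.S36.Val.Inst.Exists
import Fermat.Agent.S36.Mod.Inst.Frame
import Fermat.Agent.S36.Base.KeyInputs
import Fermat.Agent.S36.Base.FrobLift
import Fermat.Agent.S36.Top.Final
import Fermat.Agent.Crux.GM.CoordH
import Fermat.Agent.S36.Mod.IntUnit.Main

/-!
# S36 / Val / Inst / KeyK : `Top.KeyK`  (F2)

`noInvK_of_haupt` : for `N = M0 e`, `x = h(q^e)` (`GM.HauptData M0 h P β`), in the concrete frame `E = K(x)` of `Mod/Inst/Frame.lean`: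
`NoInvK` from `IData.noInvK_of_qdata`; the inputs are the items of `structure Inputs` below (= what `Mod/Inst/QInst.lean` delivers).
`keyK` : `M0 = 2` (`4 ∣ N`, `l ≠ 2`), `M0 = 3` (`9 ∣ N`, `l = 2`).
-/

set_option autoImplicit false
set_option linter.unusedSectionVars false

open ModularCurve Polynomial AlgebraicCurve

namespace Fermat.Agent.S36.Val.Inst

open Fermat.Agent.ES Fermat.Agent.SS Fermat.Agent.S24 Fermat.Agent.Crux.GT.PF
open Fermat.Agent.S36.Norm Fermat.Agent.S36.Norm.KForm Fermat.Agent.S36.Mod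
open Fermat.Agent.Crux.G Fermat.Agent.Crux.G.QLink Fermat.Agent.S36.R Fermat.Agent.S36.Top
open Fermat.Agent.S36.Base
open Fermat.Agent.Crux.GM (castS GoodCoord HauptData)
open Fermat.Agent.S36.Mod.Inst (EK xE HasX algEF algAE algAF)

noncomputable section

attribute [local instance] algEF algAE algAF

section gen

variable {N l : ℕ} [NeZero N] [NeZero l] {A0 K k : Type} [CommRing A0] [IsDomain A0]
    [IsDiscreteValuationRing A0] [Field K] [Algebra A0 K] [IsFractionRing A0 K] [Algebra K Kb]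
    [Field k]

/-- the inputs of `IData.noInvK_of_qdata` in the concrete frame. -/
structure Inputs (D : IData N l A0 K k) (xh : LaurentSeries ℤ) [HasX K xh N] [HasX K xh (N * l)]
    [HasX K xh (N * l * l)] [CharZero (EK K xh)] [FiniteDimensional (EK K xh) (FK K N)]
    [FiniteDimensional (EK K xh) (FK K (N * l))] [FiniteDimensional (EK K xh) (FK K (N * l * l))]
    (i₀ : Io l) : Prop where
  D0 : QData D.setup i₀ IData.b0 D.w1K D.w2K (l : A0) (xE K xh)
  Dinf : QData D.setup i₀ IData.b0 D.w1K D.w2K (l : A0) (xE K xh)⁻¹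
  u10 : D.Unr1 D0
  u20 : D.Unr2 D0
  u1i : D.Unr1 Dinf
  u2i : D.Unr2 Dinf

/-! ### expansions of `x`, `x⁻¹`   (task `S36/KK-exp`)

`Φ' f = coeffMap (algebraMap K Kb) (f : K((q)))` (`beta_coe`, rfl-like: `show`), `coe (algebraMap E F x) = castS K xh` (`Inst.coe_algebraMap_EF`, `Inst.coe_xE`),
`coeffMap g (coeffMap f y) = coeffMap (g.comp f) y` (ext + `coeffMap_coeff`), ring homs out of `ℤ` are unique (`RingHom.ext_int` / `Subsingleton.elim`).
`xh` is a unit of `ℤ((q))` (`HahnSeries.isUnit_iff`, leading coefficient `1`).  Orders: `castS k xh` has the same order as `xh` because the leading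
coefficient is `1` (`HahnSeries.order` API: `order_le_of_coeff_ne_zero`, `coeff_eq_zero_of_lt_order`; or `Crux.GM` lemmas on `castS` orders: grep `order_castS`);
`order (castS k yh) = - order (castS k xh)` from `castS k xh * castS k yh = 1` (`HahnSeries.order_mul`, `order_one`).
`((n : ℤ) : k) ≠ 0` iff `¬ (l : ℤ) ∣ n` (`CharP.intCast_eq_zero_iff k l`, `D.charP_k`). -/

theorem exists_inv_series {xh : LaurentSeries ℤ} (h : xh.leadingCoeff = 1) :
    ∃ yh : LaurentSeries ℤ, xh * yh = 1 := by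
  have hu : IsUnit xh := by
    rw [HahnSeries.isUnit_iff, h]
    exact isUnit_one
  obtain ⟨u, rfl⟩ := hu
  exact ⟨(↑u⁻¹ : LaurentSeries ℤ), u.mul_inv⟩

theorem Φ'_castS (f : FK K N) (zh : LaurentSeries ℤ) (hf : (f : LaurentSeries K) = castS K zh) :
    IData.Φ' f = IData.inc (A0 := A0) (K := K) (castS A0 zh) := by
  show coeffMap (algebraMap K Kb) (f : LaurentSeries K) = coeffMap (IData.φ0 A0 K) (castS A0 zh)
  rw [hf, Fermat.Agent.Crux.GM.coeffMap_castS, Fermat.Agent.Crux.GM.coeffMap_castS]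

theorem red_castS (D : IData N l A0 K k) (zh : LaurentSeries ℤ) :
    D.red (castS A0 zh) = castS k zh :=
  Fermat.Agent.Crux.GM.coeffMap_castS D.r zh

theorem order_castS_of_leading (R : Type) [CommRing R] [Nontrivial R] {xh : LaurentSeries ℤ}
    (h : xh.leadingCoeff = 1) : castS R xh ≠ 0 ∧ (castS R xh).order = xh.order :=
  ⟨Fermat.Agent.Crux.GM.castS_ne_zero xh h, Fermat.Agent.Crux.GM.order_castS xh h⟩

theorem order_castS_inv (R : Type) [Field R] {xh yh : LaurentSeries ℤ} (h : xh.leadingCoeff = 1)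
    (hy : xh * yh = 1) : castS R yh ≠ 0 ∧ (castS R yh).order = - xh.order := by
  have h1 : castS R xh * castS R yh = 1 := by rw [castS, castS, ← map_mul, hy, map_one]
  have ha : castS R xh ≠ 0 := left_ne_zero_of_mul_eq_one h1
  have hb : castS R yh ≠ 0 := right_ne_zero_of_mul_eq_one h1
  refine ⟨hb, ?_⟩
  have h2 := congrArg HahnSeries.order h1
  rw [HahnSeries.order_mul ha hb, HahnSeries.order_one, Fermat.Agent.Crux.GM.order_castS xh h] at h2
  omega

theorem coe_xE_inv (xh yh : LaurentSeries ℤ) (hy : xh * yh = 1) :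
    (((xE K xh)⁻¹ : EK K xh) : LaurentSeries K) = castS K yh := by
  rw [IntermediateField.coe_inv, Inst.coe_xE]
  symm
  apply eq_inv_of_mul_eq_one_right
  rw [castS, castS, ← map_mul, hy, map_one]

set_option maxHeartbeats 4000000 in
/-- `NoInvK` from `Inputs`. -/
theorem noInvK_of_inputs [IsAlgClosed k] [CharZero K] (D : IData N l A0 K k)
    {xh : LaurentSeries ℤ} {β : ℤ} {n : ℕ} (hx : GoodCoord N l xh β n)
    [HasX K xh N] [HasX K xh (N * l)]
    [HasX K xh (N * l * l)] [CharZero (EK K xh)] [FiniteDimensional (EK K xh) (FK K N)]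
    [FiniteDimensional (EK K xh) (FK K (N * l))] [FiniteDimensional (EK K xh) (FK K (N * l * l))]
    (i₀ : Io l) (I : Inputs D xh i₀)
    (m : ℕ) (hm0 : 0 < m) (hlm : l.Coprime m) (hmπ : ¬ (l : A0) ∣ (m : A0)) (ζ : A0)
    (hζ : IsPrimitiveRoot ζ m) (htame : ∀ u : A0, (l : A0) ∣ u - 1 → ∃ c : A0, c ^ m = u) :
    NoInvK K (N * l) (N * l * l) l (dvdA N l) (dvdB N l) m
      ((l + 1) * (l - 1) * l * (l ^ 2 - 1)) := by
  obtain ⟨yh, hy⟩ := exists_inv_series hx.leading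
  have := D.charP_k
  have hcast : ∀ a : ℤ, ¬ (l : ℤ) ∣ a → ((a : ℤ) : k) ≠ 0 := fun a ha h0 =>
    ha ((CharP.intCast_eq_zero_iff k l a).1 h0)
  refine D.noInvK_of_qdata i₀ I.D0 I.Dinf (fun _ => rfl) I.u10 I.u20 I.u1i I.u2i
    (castS A0 xh) (castS A0 yh) ?_ ?_ ?_ ?_ ?_ ?_ ?_ m hm0 hlm hmπ ζ hζ htame
  · exact Φ'_castS _ xh (by rw [Inst.coe_algebraMap_EF, Inst.coe_xE])
  · rw [red_castS]; exact (order_castS_of_leading k hx.leading).1
  · rw [red_castS, (order_castS_of_leading k hx.leading).2]; exact hcast _ hx.order_ndvd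
  · exact Φ'_castS _ yh (by rw [Inst.coe_algebraMap_EF, coe_xE_inv xh yh hy])
  · rw [red_castS]; exact (order_castS_inv k hx.leading hy).1
  · rw [red_castS, (order_castS_inv k hx.leading hy).2]
    exact hcast _ (by rw [dvd_neg]; exact hx.order_ndvd)
  · rw [Inst.coe_algebraMap_EF, Inst.coe_xE, (order_castS_of_leading K hx.leading).2]
    exact hx.order_neg

/-- **what `Mod/Inst/QInst.lean` has to deliver** (generic base `(A0, K, k)` with a Frobenius lift). -/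
def InputsHyp : Prop :=
  ∀ (M0 e l : ℕ) [NeZero M0] [NeZero e] [NeZero (M0 * e)] [NeZero l] (h : LaurentSeries ℤ)
    (P : ℤ[X]) (β : ℤ) (n : ℕ), HauptData M0 h P β → Nat.card (XN M0) = P.natDegree →
    (4 ∣ M0 * e ∨ 9 ∣ M0 * e) → ¬ (l : ℤ) ∣ β → ¬ (l : ℤ) ∣ P.eval 0 →
    GoodCoord (M0 * e) l (S28.V ℤ e h) β n →
    ∀ (A0 K k : Type) [CommRing A0] [IsDomain A0] [IsDiscreteValuationRing A0] [Field K]
      [Algebra A0 K] [IsFractionRing A0 K] [Algebra K Kb] [Field k] [IsAlgClosed k] [CharZero K]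
      (D : IData (M0 * e) l A0 K k) (τK : K →+* K) (τA : A0 →+* A0)
      (_ : ∀ a, τK (algebraMap A0 K a) = algebraMap A0 K (τA a))
      (_ : ∀ a, D.r (τA a) = D.r a ^ l)
      [HasX K (S28.V ℤ e h) (M0 * e)] [HasX K (S28.V ℤ e h) (M0 * e * l)]
      [HasX K (S28.V ℤ e h) (M0 * e * l * l)] [CharZero (EK K (S28.V ℤ e h))]
      [FiniteDimensional (EK K (S28.V ℤ e h)) (FK K (M0 * e))]
      [FiniteDimensional (EK K (S28.V ℤ e h)) (FK K (M0 * e * l))]
      [FiniteDimensional (EK K (S28.V ℤ e h)) (FK K (M0 * e * l * l))] (i₀ : Io l),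
      Inputs D (S28.V ℤ e h) i₀

theorem kappa_ne_zero {l : ℕ} (hl : l.Prime) : (l + 1) * (l - 1) * l * (l ^ 2 - 1) ≠ 0 := by
  have h2 := hl.two_le
  have h3 : 1 < l ^ 2 := by nlinarith
  have h4 : l - 1 ≠ 0 := by omega
  have h5 : l ^ 2 - 1 ≠ 0 := by omega
  have h6 : l ≠ 0 := by omega
  exact mul_ne_zero (mul_ne_zero (mul_ne_zero (by omega) h4) h6) h5

/-- one coordinate, generic base. -/
theorem noInvK_of_haupt (H : InputsHyp) (M0 e : ℕ) [NeZero M0] [NeZero e] [NeZero (M0 * e)]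
    (h : LaurentSeries ℤ) (P : ℤ[X]) (β : ℤ) (hd : HauptData M0 h P β)
    (hcard : Nat.card (XN M0) = P.natDegree) (h49 : 4 ∣ M0 * e ∨ 9 ∣ M0 * e)
    (hβ : ¬ (l : ℤ) ∣ β) (hP0 : ¬ (l : ℤ) ∣ P.eval 0)
    [IsAlgClosed k] [CharZero K] (D : IData (M0 * e) l A0 K k) (τK : K →+* K) (τA : A0 →+* A0)
    (h1 : ∀ a, τK (algebraMap A0 K a) = algebraMap A0 K (τA a))
    (h2 : ∀ a, D.r (τA a) = D.r a ^ l)
    (m : ℕ) (hm0 : 0 < m) (hlm : l.Coprime m) (hmπ : ¬ (l : A0) ∣ (m : A0)) (ζ : A0)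
    (hζ : IsPrimitiveRoot ζ m) (htame : ∀ u : A0, (l : A0) ∣ u - 1 → ∃ c : A0, c ^ m = u) :
    NoInvK K (M0 * e * l) (M0 * e * l * l) l (dvdA (M0 * e) l) (dvdB (M0 * e) l) m
      ((l + 1) * (l - 1) * l * (l ^ 2 - 1)) := by
  have hl := D.hl
  obtain ⟨n', hx⟩ := Fermat.Agent.Crux.GM.goodCoord_of_hauptData M0 e h P β hd l hl D.hN hβ hP0
  have x0 : HasX K (S28.V ℤ e h) (M0 * e) := Inst.hasX_of_goodCoord hx
  have x1 : HasX K (S28.V ℤ e h) (M0 * e * l) := Inst.hasX_of_dvd K _ (IData.dvd1 (M0 * e) l)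
  have x2 : HasX K (S28.V ℤ e h) (M0 * e * l * l) :=
    Inst.hasX_of_dvd K _ (IData.dvd1 (M0 * e * l) l)
  have c0 : CharZero (EK K (S28.V ℤ e h)) := Inst.charZero_EK _ _
  have f0 : FiniteDimensional (EK K (S28.V ℤ e h)) (FK K (M0 * e)) :=
    Inst.finiteDimensional_EF hx
  have f1 : FiniteDimensional (EK K (S28.V ℤ e h)) (FK K (M0 * e * l)) :=
    Inst.finiteDimensional_EF' hx (IData.dvd1 (M0 * e) l)
  have f2 : FiniteDimensional (EK K (S28.V ℤ e h)) (FK K (M0 * e * l * l)) :=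
    Inst.finiteDimensional_EF' hx (by rw [one_mul, mul_assoc (M0 * e)]; exact dvd_mul_right _ _)
  obtain ⟨i₀⟩ : Nonempty (Io l) := by
    have h1 := D.card_Io
    have h2 := hl.two_le
    exact Fintype.card_pos_iff.1 (by omega)
  have I := H M0 e l h P β n' hd hcard h49 hβ hP0 hx A0 K k D τK τA h1 h2 i₀
  exact noInvK_of_inputs D hx i₀ I m hm0 hlm hmπ ζ hζ htame

end gen

/-- one coordinate, over the inertia field. -/
theorem exists_noInvK_of_haupt (H : InputsHyp) (M0 e l p : ℕ) [NeZero M0] [NeZero e]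
    [NeZero (M0 * e)] [NeZero l] (h : LaurentSeries ℤ) (P : ℤ[X]) (β : ℤ)
    (hd : HauptData M0 h P β)
    (hcard : Nat.card (XN M0) = P.natDegree) (h49 : 4 ∣ M0 * e ∨ 9 ∣ M0 * e)
    (hβ : ¬ (l : ℤ) ∣ β) (hP0 : ¬ (l : ℤ) ∣ P.eval 0) (hl : l.Prime) (hp : p.Prime) (hlp : l ≠ p)
    (hlN : ¬ l ∣ M0 * e) :
    ∃ (A : ValuationSubring Qb) (c : ℕ), A.LiesOverPrime l ∧ c ≠ 0 ∧
      ∀ n : ℕ, NoInvK (L0 A) (M0 * e * l) (M0 * e * l * l) l (dvdA (M0 * e) l) (dvdB (M0 * e) l)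
        (p ^ n) c := by
  obtain ⟨A, hA⟩ := exists_liesOverPrime hl
  have := isDiscreteValuationRing_A0 hl hA
  obtain ⟨D⟩ := exists_idata (M0 * e) l hl hlN A hA
  obtain ⟨τK, τA, h1, h2⟩ := exists_frobLift hl hA
  have h2' : ∀ a, D.r (τA a) = D.r a ^ l := by
    intro a
    have h3 : resA0 A (τA a - a ^ l) = 0 := by rw [map_sub, map_pow, h2, sub_self]
    rw [resA0_eq_zero_iff, (irreducible_natCast hl hA).maximalIdeal_eq,
      Ideal.mem_span_singleton] at h3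
    obtain ⟨b, hb⟩ := h3
    have h4 : D.r (τA a - a ^ l) = 0 := by rw [hb, map_mul, D.r_l, zero_mul]
    rw [map_sub, map_pow, sub_eq_zero] at h4
    exact h4
  refine ⟨A, _, hA, kappa_ne_zero hl, fun n => ?_⟩
  have hlm : ¬ l ∣ p ^ n := fun hdvd =>
    hlp ((Nat.prime_dvd_prime_iff_eq hl hp).1 (hl.dvd_of_dvd_pow hdvd))
  obtain ⟨ζ, hζ⟩ := exists_primitiveRoot_A0 hl hA hlm
  exact noInvK_of_haupt H M0 e h P β hd hcard h49 hβ hP0 D τK τA h1 h2' (p ^ n) (pow_pos hp.pos n)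
    ((Nat.Prime.coprime_iff_not_dvd hl).2 hlm) (not_dvd_natCast hl hA hlm) ζ hζ
    (exists_pow_eq_of_dvd_sub_one hl hA hlm)

/-- **(F2)** -/
theorem keyK_of_inputs (H : InputsHyp) : KeyK := by
  intro N l p _ _ hl hp hlp hlN h4 h9
  by_cases h2 : l = 2
  · obtain ⟨c, hc⟩ := h9 h2
    obtain rfl : N = 3 * (3 * c) := by rw [hc]; ring
    have : NeZero (3 * c) := ⟨fun h0 => NeZero.ne (3 * (3 * c)) (by rw [h0, mul_zero])⟩
    exact exists_noInvK_of_haupt H 3 (3 * c) l p _ _ (-27) Fermat.Agent.Crux.GM.hauptData_3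
      IntUnit.card_XN_three (Or.inr ⟨c, by ring⟩) (by subst h2; norm_num)
      (by subst h2; simp) hl hp hlp hlN
  · obtain ⟨c, hc⟩ := h4 h2
    obtain rfl : N = 2 * (2 * c) := by rw [hc]; ring
    have : NeZero (2 * c) := ⟨fun h0 => NeZero.ne (2 * (2 * c)) (by rw [h0, mul_zero])⟩
    have hl2 : ∀ j : ℕ, ¬ (l : ℤ) ∣ 2 ^ j := by
      intro j hdvd
      have h1 : l ∣ 2 ^ j := by exact_mod_cast hdvd
      exact h2 ((Nat.prime_dvd_prime_iff_eq hl Nat.prime_two).1 (hl.dvd_of_dvd_pow h1))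
    exact exists_noInvK_of_haupt H 2 (2 * c) l p _ _ (-64) Fermat.Agent.Crux.GM.hauptData_2
      IntUnit.card_XN_two (Or.inl ⟨c, by ring⟩)
      (by rw [dvd_neg]; exact hl2 6) (by
        have : ((X + 16 : ℤ[X]) ^ 3).eval 0 = 2 ^ 12 := by simp
        rw [this]; exact hl2 12)
      hl hp hlp hlN

end

end Fermat.Agent.S36.Val.Inst
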