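import Fermat.Agent.S36.Val.Setup
import Fermat.Agent.S36.Val.Gauss
import Fermat.Agent.S36.Norm.KForm.Main
import Fermat.Agent.S36.Mod.Mid

/-!
# S36 / Val / Inst / Defs : the data of the modular instance of `Val.Setup`

Generic base `(A0, K, k)`: `A0` a DVR with uniformiser the prime number `l`, `K = Frac A0 ⊆ Kb = ℚ̄`, `r : A0 ↠ k`.
(Application: `A0 = Base.A0 A`, `K = Base.L0 A`.)
`F_j = modularFunctionFieldFullC K (N l^j)`  (`FK K M`), `β = Crux.GT.PF.beta K M : FK K M →+* FF M`.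

TRICK: `Ω = Ω1 = ℚ̄((q))`, `base = id`, `O = A0((q))`, `O1 = B((q))`, `B = A0[z] ⊆ ℚ̄` (`Val/Eis.lean`).
All the embeddings are RESTRICTIONS along `β` of `ℚ̄`-level maps:
`Φ' = Ψinf = Φinf = coe ∘ β`, `Ψ0 = coe ∘ w1 ∘ β`, `Φ0 = coe ∘ w2 ∘ β`, `τ i = τ_{z_i} ∘ β`.
`μ = rootsOfUnity l ℚ̄`, `ι = {z ∈ μ // z ≠ 1}`.
-/

set_option autoImplicit false
set_option linter.unusedSectionVars false

open ModularCurve Polynomial

namespace Fermat.Agent.S36.Val.Inst

open Fermat.Agent.ES Fermat.Agent.SS Fermat.Agent.S24 Fermat.Agent.Crux.GT.PF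
open Fermat.Agent.S36.Norm Fermat.Agent.S36.Norm.KForm Fermat.Agent.S36.Mod

noncomputable section

/-- `F_K(M)`. -/
abbrev FK (K : Type) [Field K] (M : ℕ) [NeZero M] : Type := ↥(modularFunctionFieldFullC K M)

/-- `μ_l(ℚ̄)`. -/
abbrev Mu (l : ℕ) [NeZero l] : Type := ↥(rootsOfUnity l Qb)

/-- the primitive `l`-th roots of unity (`l` prime). -/
abbrev Io (l : ℕ) [NeZero l] : Type := {z : Mu l // z ≠ 1}

instance (l : ℕ) [NeZero l] : Fintype (Io l) := Fintype.ofFinite _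

/-- the data. -/
structure IData (N l : ℕ) [NeZero N] [NeZero l] (A0 K k : Type) [CommRing A0] [IsDomain A0]
    [IsDiscreteValuationRing A0] [Field K] [Algebra A0 K] [IsFractionRing A0 K] [Algebra K Kb]
    [Field k] where
  hl : l.Prime
  hN : ¬ l ∣ N
  r : A0 →+* k
  hr : Function.Surjective r
  hπ : Irreducible (l : A0)
  -- the cyclotomic extension (`Val/Eis.lean`)
  B : Subring Kb
  dvr : IsDiscreteValuationRing B
  ψ : A0 →+* B
  r1 : B →+* k
  zz : Bˣ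
  u : Bˣ
  hψ : ∀ a, (ψ a : Kb) = algebraMap K Kb (algebraMap A0 K a)
  hzz : IsPrimitiveRoot ((zz : B) : Kb) l
  hr1 : Function.Surjective r1
  hr1ψ : ∀ a, r1 (ψ a) = r a
  hr1z : r1 zz = 1
  hlam : Irreducible ((zz : B) - 1)
  hu : (l : B) = u * ((zz : B) - 1) ^ (l - 1)
  -- Atkin-Lehner involutions and middle embeddings (helper64)
  w1 : FF (N * l) →ₐ[Qb] FF (N * l)
  hw1 : IsAL N l w1
  w2 : FF (N * l * l) →ₐ[Qb] FF (N * l * l)
  hw2 : IsAL2 N l w2
  τ : Io l → FF (N * l * l) →ₐ[Qb] LaurentSeries Qb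
  hτ : ∀ i : Io l, IsMid N l ((i : Mu l) : Qbˣ) (τ i)
  -- constants
  roots : ∀ m : ℕ, 0 < m → ∀ a : k, ∃ b, b ^ m = a
  tame1 : ∀ m : ℕ, 0 < m → l.Coprime m → ∀ c : K, c ≠ 0 → ∃ (n : ℤ) (e : K),
    c = (l : K) ^ n * e ^ m
  tame2 : ∀ m : ℕ, 0 < m → l.Coprime m → ∀ γ : k, γ ^ m = 1 → ∃ a : A0, a ^ m = 1 ∧ r a = γ

namespace IData

variable {N l : ℕ} [NeZero N] [NeZero l] {A0 K k : Type} [CommRing A0] [IsDomain A0]
    [IsDiscreteValuationRing A0] [Field K] [Algebra A0 K] [IsFractionRing A0 K] [Algebra K Kb]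
    [Field k] (D : IData N l A0 K k)

/-- `A0 → ℚ̄`. -/
def φ0 (A0 K : Type) [CommRing A0] [Field K] [Algebra A0 K] [Algebra K Kb] : A0 →+* Kb :=
  (algebraMap K Kb).comp (algebraMap A0 K)

def inc : LaurentSeries A0 →+* LaurentSeries Qb := coeffMap (φ0 A0 K)
def red : LaurentSeries A0 →+* LaurentSeries k := coeffMap D.r
def inc1 : LaurentSeries D.B →+* LaurentSeries Qb := coeffMap D.B.subtype
def red1 : LaurentSeries D.B →+* LaurentSeries k := coeffMap D.r1
def baseO : LaurentSeries A0 →+* LaurentSeries D.B := coeffMap D.ψ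
def lam : LaurentSeries D.B := HahnSeries.C ((D.zz : D.B) - 1)

/-- every `l`-th root of unity of `ℚ̄` is a unit of `B` (a power of `zz`). -/
theorem exists_lift (ζ : Mu l) : ∃ v : D.Bˣ, ((v : D.B) : Kb) = ((ζ : Qbˣ) : Qb) ∧ D.r1 v = 1 := by
  have h1 : (((ζ : Qbˣ) : Qb)) ^ l = 1 := by
    have := ζ.2
    rw [mem_rootsOfUnity] at this
    have h2 := congrArg Units.val this
    rwa [Units.val_pow_eq_pow_val, Units.val_one] at h2
  obtain ⟨i, -, hi⟩ := D.hzz.eq_pow_of_pow_eq_one h1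
  refine ⟨D.zz ^ i, ?_, ?_⟩
  · rw [← hi]; simp
  · simp [D.hr1z]

def lift (ζ : Mu l) : D.Bˣ := (D.exists_lift ζ).choose
theorem coe_lift (ζ : Mu l) : ((D.lift ζ : D.B) : Kb) = ((ζ : Qbˣ) : Qb) :=
  (D.exists_lift ζ).choose_spec.1
theorem r1_lift (ζ : Mu l) : D.r1 (D.lift ζ) = 1 := (D.exists_lift ζ).choose_spec.2

/-- the divisibilities between the levels. -/
theorem dvd1 (N l : ℕ) : 1 * N ∣ N * l := by rw [one_mul]; exact dvd_mul_right _ _
theorem dvdl (N l : ℕ) : l * N ∣ N * l := by rw [mul_comm]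

def cst : K →+* FK K N := algebraMap K (FK K N)
def a0 : FK K N →+* FK K (N * l) := (dgK K N (N * l) 1 (dvd1 N l)).toRingHom
def b0 : FK K N →+* FK K (N * l) := (dgK K N (N * l) l (dvdl N l)).toRingHom
def al : FK K (N * l) →+* FK K (N * l * l) :=
  (dgK K (N * l) (N * l * l) 1 (dvd1 (N * l) l)).toRingHom
def be : FK K (N * l) →+* FK K (N * l * l) :=
  (dgK K (N * l) (N * l * l) l (dvdl (N * l) l)).toRingHom

/-- a norm as a `MonoidWithZeroHom`. -/
def nm0 {F E : Type*} [Field F] [Field E] (φ : F →+* E) (hφ : FinHom φ) : E →*₀ F where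
  toFun := normHom φ
  map_zero' := by
    letI := φ.toAlgebra
    haveI : FiniteDimensional F E := hφ
    exact Algebra.norm_zero
  map_one' := map_one _
  map_mul' := map_mul _

def NmA : FK K (N * l * l) →*₀ FK K (N * l) :=
  nm0 (al (K := K) (N := N) (l := l)) (finHom_dgK K (N * l) (N * l * l) 1 (dvd1 (N * l) l))
def NmB : FK K (N * l * l) →*₀ FK K (N * l) :=
  nm0 (be (K := K) (N := N) (l := l)) (finHom_dgK K (N * l) (N * l * l) l (dvdl (N * l) l))

/-- `coe : FF M → ℚ̄((q))`. -/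
def coeF (M : ℕ) : FF M →+* LaurentSeries Qb := (modularFunctionFieldBar M).val.toRingHom

def Φ' : FK K N →+* LaurentSeries Qb := (coeF N).comp (beta K N)
def Ψinf : FK K (N * l) →+* LaurentSeries Qb := (coeF (N * l)).comp (beta K (N * l))
def Ψ0 : FK K (N * l) →+* LaurentSeries Qb :=
  ((coeF (N * l)).comp D.w1.toRingHom).comp (beta K (N * l))
def Φinf : FK K (N * l * l) →+* LaurentSeries Qb := (coeF (N * l * l)).comp (beta K (N * l * l))
def Φ0 : FK K (N * l * l) →+* LaurentSeries Qb :=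
  ((coeF (N * l * l)).comp D.w2.toRingHom).comp (beta K (N * l * l))
def τK (i : Io l) : FK K (N * l * l) →+* LaurentSeries Qb :=
  (D.τ i).toRingHom.comp (beta K (N * l * l))

/-- `z ↦ z⁻¹` on the primitive roots. -/
def ν (i : Io l) : Io l := ⟨(i : Mu l)⁻¹, fun h => i.2 (inv_eq_one.1 h)⟩

def j0 : FK K N := jKd K N 1 (one_dvd _)
def j1 : FK K (N * l) := jKd K (N * l) l (dvd_mul_left _ _)
def j2 : FK K (N * l * l) := jKd K (N * l * l) (l * l) (by
  rw [mul_assoc]; exact dvd_mul_left _ _)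

end IData

end

end Fermat.Agent.S36.Val.Inst
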