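import Fermat.Agent.S36.Val.Inst.Setup
import Fermat.Agent.S36.Val.Inst.WK
import Fermat.Agent.S36.Mod.Key
import Fermat.Agent.S36.Top.Glue

/-!
# S36 / Val / Inst / Final : `NoInvK` from the abstract end game `Mod.key` for `S = D.setup`
-/

set_option autoImplicit false
set_option linter.unusedSectionVars false

open ModularCurve Polynomial AlgebraicCurve

namespace Fermat.Agent.S36.Val.Inst

open Fermat.Agent.ES Fermat.Agent.SS Fermat.Agent.S24 Fermat.Agent.Crux.GT.PF
open Fermat.Agent.S36.Norm Fermat.Agent.S36.Norm.KForm Fermat.Agent.S36.Mod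
open Fermat.Agent.Crux.G.QLink Fermat.Agent.S36.R Fermat.Agent.S36.Top

noncomputable section

namespace IData

variable {N l : ℕ} [NeZero N] [NeZero l] {A0 K k : Type} [CommRing A0] [IsDomain A0]
    [IsDiscreteValuationRing A0] [Field K] [Algebra A0 K] [IsFractionRing A0 K] [Algebra K Kb]
    [Field k] (D : IData N l A0 K k)

variable {E : Type} [Field E] [CharZero E] [Algebra A0 E]
    [Algebra E (FK K N)] [Algebra E (FK K (N * l))] [Algebra E (FK K (N * l * l))]
    [Algebra A0 (FK K N)] [Algebra A0 (FK K (N * l))] [Algebra A0 (FK K (N * l * l))]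
    [IsScalarTower A0 E (FK K N)] [IsScalarTower A0 E (FK K (N * l))]
    [IsScalarTower A0 E (FK K (N * l * l))]
    [FiniteDimensional E (FK K N)] [FiniteDimensional E (FK K (N * l))]
    [FiniteDimensional E (FK K (N * l * l))]

theorem c2_eq (c : K) : D.setup.c2 c = algebraMap K (FK K (N * l * l)) c := by
  show al (a0 (cst c)) = _
  simp only [al, a0, cst, AlgHom.toRingHom_eq_coe, RingHom.coe_coe, AlgHom.commutes]

theorem a0_cst (c : K) : D.setup.a0 (D.setup.cst c) = algebraMap K (FK K (N * l)) c := by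
  show a0 (cst c) = _
  simp only [a0, cst, AlgHom.toRingHom_eq_coe, RingHom.coe_coe, AlgHom.commutes]

set_option maxHeartbeats 4000000 in
/-- **(F1)** -/
theorem noInvK_of_charts [CharZero K] (i₀ : Io l) {x : E}
    (D0 : QData D.setup i₀ b0 D.w1K D.w2K (l : A0) x)
    (Dinf : QData D.setup i₀ b0 D.w1K D.w2K (l : A0) x⁻¹)
    (X0 : D0.chart.Extra D.hl.two_le) (Xinf : Dinf.chart.Extra D.hl.two_le)
    (T0 : TowerF l (D0.chart.tower D.hl.two_le X0) D.setup.a0 D.setup.al D.setup.be)
    (Tinf : TowerF l (Dinf.chart.tower D.hl.two_le Xinf) D.setup.a0 D.setup.al D.setup.be)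
    (hded0 : IsDedekindDomain D0.chart.Rr) (hdedinf : IsDedekindDomain Dinf.chart.Rr)
    (hAK : ∀ a : A0, algebraMap K (FK K N) (algebraMap A0 K a) = algebraMap A0 (FK K N) a)
    (hx : ((algebraMap E (FK K (N * l * l)) x : FK K (N * l * l)) : LaurentSeries K).order < 0)
    (m : ℕ) (hm0 : 0 < m) (hlm : l.Coprime m) (hmπ : ¬ (l : A0) ∣ (m : A0)) (ζ : A0)
    (hζ : IsPrimitiveRoot ζ m) (htame : ∀ u : A0, (l : A0) ∣ u - 1 → ∃ c : A0, c ^ m = u) :
    NoInvK K (N * l) (N * l * l) l (dvdA N l) (dvdB N l) m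
      ((l + 1) * (l - 1) * l * (l ^ 2 - 1)) := by
  intro f hf hord hA hB
  obtain ⟨k1, h1, hA⟩ := hA
  obtain ⟨k2, h2, hB⟩ := hB
  have hnA : nmK K (N * l) (N * l * l) 1 (dvdA N l) f ≠ 0 :=
    normHom_ne_zero _ (finHom_dgK K (N * l) (N * l * l) 1 (dvdA N l)) hf
  have hnB : nmK K (N * l) (N * l * l) l (dvdB N l) f ≠ 0 :=
    normHom_ne_zero _ (finHom_dgK K (N * l) (N * l * l) l (dvdB N l)) hf
  have hk1 : k1 ≠ 0 := by
    rintro rfl
    rw [map_zero, zero_mul] at hA
    exact hnA hA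
  have hk2 : k2 ≠ 0 := by
    rintro rfl
    rw [map_zero, zero_mul] at hB
    exact hnB hB
  obtain ⟨c, g, h⟩ := key (S := D.setup) D.hl D0 Dinf X0 Xinf T0 Tinf hded0 hdedinf
    (fun c => (D.c2_eq c).symm) hAK
    (modularFunctionFieldFullC K (N * l * l)).val.toRingHom
    (by
      intro a
      have h1 : algebraMap A0 (FK K (N * l * l)) a
          = algebraMap K (FK K (N * l * l)) (algebraMap A0 K a) := by
        rw [← D.c2_eq]
        show _ = D.setup.al (D.setup.a0 (algebraMap K (FK K N) (algebraMap A0 K a)))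
        rw [hAK, IsScalarTower.algebraMap_apply A0 E (FK K N), D0.a0_E, D0.al_E,
          ← IsScalarTower.algebraMap_apply]
      rw [h1]
      show algebraMap K (LaurentSeries K) (algebraMap A0 K a) = _
      rw [algebraMap_laurentSeries_eq_single, HahnSeries.C_apply])
    hx m hm0 hlm hmπ ζ hζ htame f hf hord k1 k2 hk1 hk2 h1 h2
    (by rw [D.a0_cst]; exact hA) (by rw [D.a0_cst]; exact hB)
  exact ⟨c, g, by rw [h, D.c2_eq]⟩

end IData

end

end Fermat.Agent.S36.Val.Inst
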